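import Fermat.Agent.RelPic.Functor.Sheaf
import Fermat.Prelude.Def_AlgebraicGeometry_RepresentsRelSubPic
import Mathlib.AlgebraicGeometry.Sites.Representability

/-!
# The bundles of degree zero are represented by the glued charts
-/

set_option autoImplicit false
set_option linter.style.haveILetI false

noncomputable section

universe u

open CategoryTheory CategoryTheory.Limits AlgebraicGeometry AlgebraicGeometry.RelPicard NeronModelInfra
  GoodReductionJacobian Opposite

namespace Fermat.Agent.RelPic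

variable {k : Type u} [Field k] {C : Scheme.{u}} {c : C ⟶ Spec (CommRingCat.of k)}
  {ε : SchemeHomOver (𝟙 (Spec (CommRingCat.of k))) c}

/-- The triple of the structure sheaf over a field has degree zero. -/
structure UnitDegZero (G : GeomModel c ε) : Prop where
  deg : ∀ (K : Type u) [Field K] [Algebra k K] (X : Triple G.model K),
    TripleOf G K (RigidifiedLineBundle.unit (c := c) (ε := ε) (str k K)).L X → X.deg = 0

variable {G : GeomModel c ε} {T : Scheme.{u}} {t : T ⟶ Spec (CommRingCat.of k)}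

theorem UnitDegZero.fibDegZero (hu : UnitDegZero G) (t : T ⟶ Spec (CommRingCat.of k)) :
    FibDegZero G (RigidifiedLineBundle.unit (c := c) (ε := ε) t) := fun K _ _ _ X hX =>
  hu.deg K X (hX.of_iso (Scheme.Modules.pullbackUnitIso _))

/-- The condition of degree zero on all fibres. -/
def degZeroCut (hu : UnitDegZero G) : SubPicCondition c ε where
  P := fun _ M => FibDegZero G M
  unit_mem := fun t => hu.fibDegZero t
  congr := fun _ _ _ e h => h.of_iso e
  pullback_mem := fun _ _ ψ _ h => h.pullback ψ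

/-- Representability only depends on the predicate. -/
def representsCongr {P P' : SubPicCondition c ε} {D : RelativePic0Designation k c}
    (hP : ∀ {T : Scheme.{u}} (t : T ⟶ Spec (CommRingCat.of k)) (M : RigidifiedLineBundle c ε t),
      P.P t M ↔ P'.P t M) (h : RepresentsRelSubPic c ε P D) : RepresentsRelSubPic c ε P' D where
  poincare := h.poincare
  poincare_mem := (hP _ _).mp h.poincare_mem
  univ t M hM := h.univ t M ((hP _ _).mpr hM)
  zero := h.zero

variable (hD : DictProps G) (hopen : ∀ i : Idx G.model, i.IsOpenCondition G.e)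
  (d : ∀ i : Idx G.model, i.ChartData G.e)

/-- The point given by the universal bundle of a chart. -/
def chartPt (i : Idx G.model) : DegZeroPts G (Spec (CommRingCat.of (d i).S)) :=
  mkPt (str k (d i).S) (chartBundle hD (d i))
    (fibDegZero_of_chartAll hD (hopen i) (chartAll_chartBundle hD (d i) (hopen i)))

/-- The morphism of presheaves of a chart. -/
def chartHom (i : Idx G.model) :
    yoneda.obj (Spec (CommRingCat.of (d i).S)) ⟶ degZeroFunctor G :=
  yonedaEquiv.symm (chartPt hD hopen d i)

/-- The open where a bundle lies in a chart maps to the chart. -/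
theorem exists_classify_chartOpen (i : Idx G.model) (M : RigidifiedLineBundle c ε t)
    (h : FibDegZero G M) :
    ∃ φ : (chartOpen hD (hopen i) M).toScheme ⟶ Spec (CommRingCat.of (d i).S),
      ptMap φ (chartPt hD hopen d i) =
        ptMap (chartOpen hD (hopen i) M).ι (mkPt t M h) := by
  set U := chartOpen hD (hopen i) M
  have hall : ChartAll G i (M.pullbackAlong (⟨U.ι, rfl⟩ : SchemeHomOver (U.ι ≫ t) t)) := by
    rw [chartAll_iff hD (hopen i), chartSet_pullback hD (hopen i)]
    exact Set.eq_univ_of_forall fun x => x.2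
  obtain ⟨φ, hφ⟩ := (existsUnique_classify hD (d i) (hopen i) _ hall).exists
  refine ⟨φ.1, ?_⟩
  rw [chartPt, ptMap_mkPt_of_over, ptMap_mkPt, mkPt_eq_iff]
  exact hφ

theorem yonedaEquiv_chartHom (i : Idx G.model) :
    yonedaEquiv (chartHom hD hopen d i) = chartPt hD hopen d i :=
  Equiv.apply_symm_apply _ _

theorem isOpenImmersion_chartHom (i : Idx G.model) :
    IsOpenImmersion.presheaf (chartHom hD hopen d i) := by
  refine MorphismProperty.relative.of_exists fun a g => ?_
  obtain ⟨x, rfl⟩ := yonedaEquiv.symm.surjective g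
  obtain ⟨t, M, h, rfl⟩ := exists_mkPt (G := G) (T := a) x
  set U := chartOpen hD (hopen i) M with hU
  obtain ⟨φ, hφ⟩ : ∃ φ : U.toScheme ⟶ Spec (CommRingCat.of (d i).S),
      ptMap φ (chartPt hD hopen d i) = ptMap U.ι (mkPt t M h) :=
    exists_classify_chartOpen hD hopen d i M h
  refine ⟨U.toScheme, yoneda.map φ, U.ι, ?_, inferInstanceAs (IsOpenImmersion U.ι)⟩
  refine IsPullback.of_forall_isPullback_app fun Z => ?_
  rw [Types.isPullback_iff]
  refine ⟨?_, ?_, ?_⟩
  · ext (w : Z.unop ⟶ U.toScheme)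
    show ptMap (w ≫ φ) (chartPt hD hopen d i) = ptMap (w ≫ U.ι) (mkPt t M h)
    rw [← ptMap_comp, ← ptMap_comp, hφ]
  · rintro (w : Z.unop ⟶ U.toScheme) (w' : Z.unop ⟶ U.toScheme) ⟨-, e⟩
    exact (cancel_mono U.ι).mp e
  · intro (w₂ : Z.unop ⟶ Spec (CommRingCat.of (d i).S)) (w₃ : Z.unop ⟶ a) e
    change ptMap w₂ (chartPt hD hopen d i) = ptMap w₃ (mkPt t M h) at e
    have hb := congrArg ptBase e
    rw [ptBase_ptMap, ptBase_ptMap, chartPt, ptBase_mkPt, ptBase_mkPt] at hb
    let ψ : SchemeHomOver (w₃ ≫ t) (str k (d i).S) := ⟨w₂, hb⟩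
    let χ : SchemeHomOver (w₃ ≫ t) t := ⟨w₃, rfl⟩
    have e' : Nonempty (((chartBundle hD (d i)).pullbackAlong ψ).L ≅ (M.pullbackAlong χ).L) := by
      change ptMap ψ.1 (chartPt hD hopen d i) = ptMap χ.1 (mkPt t M h) at e
      rw [chartPt, ptMap_mkPt_of_over, ptMap_mkPt_of_over] at e
      exact mkPt_eq_iff.mp e
    have hall : ChartAll G i (M.pullbackAlong χ) :=
      ((chartAll_chartBundle hD (d i) (hopen i)).pullback ψ).of_iso e'
    have hr : Set.range w₃ ⊆ Set.range U.ι := by
      rintro _ ⟨z, rfl⟩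
      rw [chartAll_iff hD (hopen i), chartSet_pullback hD (hopen i)] at hall
      rw [Scheme.Opens.range_ι]
      exact (hall.ge (Set.mem_univ z) : _)
    let w := IsOpenImmersion.lift U.ι w₃ hr
    have hw : w ≫ U.ι = w₃ := IsOpenImmersion.lift_fac _ _ hr
    refine ⟨w, ?_, hw⟩
    show w ≫ φ = w₂
    have e2 : ptMap (w ≫ φ) (chartPt hD hopen d i) = ptMap w₃ (mkPt t M h) := by
      rw [← ptMap_comp, hφ, ptMap_comp, hw]
    have hb2 := congrArg ptBase e2
    rw [ptBase_ptMap, ptBase_ptMap, chartPt, ptBase_mkPt, ptBase_mkPt] at hb2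
    let ψ' : SchemeHomOver (w₃ ≫ t) (str k (d i).S) := ⟨w ≫ φ, hb2⟩
    have e2' : Nonempty (((chartBundle hD (d i)).pullbackAlong ψ').L ≅ (M.pullbackAlong χ).L) := by
      change ptMap ψ'.1 (chartPt hD hopen d i) = ptMap χ.1 (mkPt t M h) at e2
      rw [chartPt, ptMap_mkPt_of_over, ptMap_mkPt_of_over] at e2
      exact mkPt_eq_iff.mp e2
    exact congrArg Subtype.val (classify_unique hD (d i) (hopen i) _ hall e2' e')

include hopen in
theorem isLocallySurjective_chartHom (hcov : G.model.HasCoverage G.e) :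
    Presheaf.IsLocallySurjective Scheme.zariskiTopology
      (Sigma.desc (chartHom hD hopen d)) where
  imageSieve_mem {Y} s := by
    obtain ⟨t, M, h, rfl⟩ := exists_mkPt (G := G) (T := Y) s
    have htop : TopologicalSpace.IsOpenCover fun i => chartOpen hD (hopen i) M := by
      refine eq_top_iff.mpr fun x _ => ?_
      obtain ⟨i, hi⟩ := exists_mem_chartSet hD hcov hopen M h x
      exact TopologicalSpace.Opens.mem_iSup.mpr ⟨i, hi⟩
    rw [Scheme.mem_grothendieckTopology_iff]
    refine ⟨Y.openCoverOfIsOpenCover _ htop, ?_⟩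
    rintro _ _ ⟨i⟩
    obtain ⟨φ, hφ⟩ := exists_classify_chartOpen hD hopen d i M h
    refine ⟨(Sigma.ι (fun i => yoneda.obj (Spec (CommRingCat.of (d i).S))) i).app _ φ, ?_⟩
    show ((Sigma.ι (fun i => yoneda.obj (Spec (CommRingCat.of (d i).S))) i) ≫
      Sigma.desc (chartHom hD hopen d)).app _ φ = _
    exact (congrArg (fun m : _ ⟶ degZeroFunctor G => m.app _ φ)
      (Sigma.ι_desc (chartHom hD hopen d) i)).trans hφ

omit hD hopen d in
/-- The glued scheme sends the inclusion of a member to its point. -/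
theorem homEquiv_toGlued {F : Sheaf Scheme.zariskiTopology.{u} (Type u)} {ι : Type u}
    {X : ι → Scheme.{u}} {f : (i : ι) → yoneda.obj (X i) ⟶ F.1}
    (hf : ∀ i, IsOpenImmersion.presheaf (f i))
    [Presheaf.IsLocallySurjective Scheme.zariskiTopology (Sigma.desc f)] (i : ι) :
    (Scheme.LocalRepresentability.representableBy hf).homEquiv
        (Scheme.LocalRepresentability.toGlued hf i) = yonedaEquiv (f i) :=
  Scheme.LocalRepresentability.yonedaGluedToSheaf_app_toGlued hf

omit hD hopen d in
/-- The members cover the glued scheme. -/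
theorem exists_mem_range_toGlued {F : Sheaf Scheme.zariskiTopology.{u} (Type u)} {ι : Type u}
    {X : ι → Scheme.{u}} {f : (i : ι) → yoneda.obj (X i) ⟶ F.1}
    (hf : ∀ i, IsOpenImmersion.presheaf (f i))
    (x : ↥(Scheme.LocalRepresentability.glueData hf).glued) :
    ∃ i, IsOpenImmersion (Scheme.LocalRepresentability.toGlued hf i) ∧
      x ∈ Set.range (Scheme.LocalRepresentability.toGlued hf i) := by
  obtain ⟨(i : ι), y, hy⟩ := (Scheme.LocalRepresentability.glueData hf).ι_jointly_surjective x
  exact ⟨i, inferInstance, y, hy⟩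

include hD hopen in
/-- Bundles of degree zero are represented by a scheme covered by the charts. -/
theorem exists_representsRelSubPic (hcov : G.model.HasCoverage G.e)
    (hchart : ∀ i : Idx G.model, Nonempty (i.ChartData G.e)) (hu : UnitDegZero G) :
    ∃ D : RelativePic0Designation k c,
      Nonempty (RepresentsRelSubPic c ε (degZeroCut hu) D) ∧
        ∀ x : D.P, ∃ (i : Idx G.model) (d : i.ChartData G.e)
          (j : Spec (CommRingCat.of d.S) ⟶ D.P), IsOpenImmersion j ∧ x ∈ Set.range j ∧
            j ≫ D.toBase = str k d.S := by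
  let d : ∀ i : Idx G.model, i.ChartData G.e := fun i => (hchart i).some
  let F : Sheaf Scheme.zariskiTopology (Type u) :=
    ⟨degZeroFunctor G, (isSheaf_iff_isSheaf_of_type _ _).mpr (isSheaf_degZeroFunctor hD)⟩
  let f : ∀ i, yoneda.obj (Spec (CommRingCat.of (d i).S)) ⟶ F.1 := fun i => chartHom hD hopen d i
  have hf : ∀ i, IsOpenImmersion.presheaf (f i) := fun i => isOpenImmersion_chartHom hD hopen d i
  haveI : Presheaf.IsLocallySurjective Scheme.zariskiTopology (Sigma.desc f) :=
    isLocallySurjective_chartHom hD hopen d hcov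
  set X := (Scheme.LocalRepresentability.glueData hf).glued
  let e := Scheme.LocalRepresentability.representableBy hf
  let η : DegZeroPts G X := e.homEquiv (𝟙 X)
  have hη : ∀ {Y : Scheme.{u}} (g : Y ⟶ X), (e.homEquiv g : DegZeroPts G Y) = ptMap g η := by
    intro Y g
    have := e.homEquiv_comp g (𝟙 X)
    rw [Category.comp_id] at this
    exact this
  obtain ⟨b, P₀, hP₀, hηeq⟩ := exists_mkPt η
  have key : ∀ {Y : Scheme.{u}} (g : Y ⟶ X) {s : Y ⟶ Spec (CommRingCat.of k)}
      {M : RigidifiedLineBundle c ε s} {hM : FibDegZero G M},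
      e.homEquiv g = mkPt s M hM → g ≫ b = s := by
    intro Y g s M hM hg
    have h1 := congrArg (ptBase (G := G)) ((hη g).symm.trans hg)
    rwa [hηeq, ptBase_ptMap, ptBase_mkPt, ptBase_mkPt] at h1
  have key' : ∀ {Y : Scheme.{u}} {s : Y ⟶ Spec (CommRingCat.of k)} (g : SchemeHomOver s b)
      (M : RigidifiedLineBundle c ε s) (hM : FibDegZero G M),
      e.homEquiv g.1 = mkPt s M hM ↔ Nonempty ((P₀.pullbackAlong g).L ≅ M.L) := by
    intro Y s g M hM
    rw [hη, hηeq, ptMap_mkPt_of_over]
    exact mkPt_eq_iff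
  let z := e.homEquiv.symm (mkPt (𝟙 _) _ (hu.fibDegZero (𝟙 (Spec (CommRingCat.of k)))))
  have hz : z ≫ b = 𝟙 _ := key z (e.homEquiv.apply_symm_apply _)
  refine ⟨⟨X, b, z, hz⟩, ⟨⟨P₀, hP₀, ?_, ?_⟩⟩, fun x => ?_⟩
  · intro Y s M hM
    refine ⟨⟨e.homEquiv.symm (mkPt s M hM), key _ (e.homEquiv.apply_symm_apply _)⟩,
      (key' _ M hM).mp (e.homEquiv.apply_symm_apply _), fun g hg => Subtype.ext ?_⟩
    exact e.homEquiv.injective (((key' g M hM).mpr hg).trans (e.homEquiv.apply_symm_apply _).symm)
  · exact (key' ⟨z, hz⟩ _ _).mp (e.homEquiv.apply_symm_apply _)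
  · obtain ⟨i, hj, hx⟩ := exists_mem_range_toGlued hf x
    refine ⟨i, d i, Scheme.LocalRepresentability.toGlued hf i, hj, hx, ?_⟩
    have h1 : e.homEquiv (Scheme.LocalRepresentability.toGlued hf i) =
        yonedaEquiv (chartHom hD hopen d i) := homEquiv_toGlued hf i
    exact key _ (h1.trans (yonedaEquiv_chartHom hD hopen d i))

end Fermat.Agent.RelPic

end
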