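import Fermat.Agent.RelPic.Functor.Represent
import Fermat.Agent.RelPic.Complex.Cohomology
import Fermat.Agent.RelPic.Dict.Functions

/-!
# The triple of the structure sheaf has degree zero
-/

set_option autoImplicit false
set_option synthInstance.maxHeartbeats 400000

noncomputable section

universe u

open CategoryTheory CategoryTheory.Limits AlgebraicGeometry AlgebraicGeometry.RelPicard NeronModelInfra
open scoped TensorProduct

namespace Fermat.Agent.RelPic

variable {k : Type u} [Field k]

/-- A subalgebra as a submodule over itself. -/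
def selfSubmodule {R A : Type u} [CommRing R] [CommRing A] [Algebra R A] (S : Subalgebra R A) :
    Submodule S A where
  carrier := S
  add_mem' := fun ha hb => add_mem ha hb
  zero_mem' := zero_mem _
  smul_mem' := fun a _ hx => mul_mem a.2 hx

/-- A subalgebra is free of rank one over itself. -/
def selfSubmoduleEquiv {R A : Type u} [CommRing R] [CommRing A] [Algebra R A] (S : Subalgebra R A) :
    S ≃ₗ[S] selfSubmodule S where
  toFun a := ⟨(a : A), a.2⟩
  invFun a := ⟨(a : A), a.2⟩
  left_inv _ := rfl
  right_inv _ := rfl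
  map_add' _ _ := rfl
  map_smul' _ _ := rfl

/-- The triple of the structure sheaf. -/
def Model.unitTriple (C : Model k) (R : Type u) [CommRing R] [Algebra k R] : Triple C R where
  M := C.A R
  p := selfSubmodule (C.Cp R)
  m := selfSubmodule (C.Cm R)
  inv_p := Module.Invertible.congr (selfSubmoduleEquiv (C.Cp R))
  inv_m := Module.Invertible.congr (selfSubmoduleEquiv (C.Cm R))
  exists_pow_smul_mem_p := fun v => C.exists_pow_mul_mem_Cp R v
  exists_pow_smul_mem_m := fun v => C.exists_pow_mul_mem_Cm R v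

theorem Model.unitTriple_deg (C : Model k) : (C.unitTriple k).deg = 0 := by
  rw [Triple.deg, sub_eq_zero]
  rfl

variable {C : Scheme.{u}} {c : C ⟶ Spec (CommRingCat.of k)}
  {ε : SchemeHomOver (𝟙 (Spec (CommRingCat.of k))) c} (G : GeomModel c ε)

/-- A triple of the structure sheaf over a field is a base change of the one over `k`. -/
theorem nonempty_bc_unitTriple (K : Type u) [Field K] [Algebra k K] (X : Triple G.model K)
    (hX : TripleOf G K (RigidifiedLineBundle.unit (c := c) (ε := ε) (str k K)).L X) :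
    Nonempty (Triple.BC (Algebra.ofId k K) (G.model.unitTriple k) X) := by
  obtain ⟨e⟩ := hX
  set P := pullback c (str k K)
  let u₀ : X.M := e.toEquiv.symm (toUnit (G.j₀ K ''ᵁ ⊤) 1)
  have key : ∀ a : G.model.A K, e.toEquiv (a • u₀) = toUnit _ (secHom (G.j₀ K) a) := fun a => by
    have h := e.map_smul a u₀
    rw [e.toEquiv.apply_symm_apply] at h
    refine h.trans (((toUnit _).map_smul _ _).symm.trans (congrArg _ ?_))
    exact mul_one _
  have hgen : ∀ v : X.M, ∃ a : G.model.A K, v = a • u₀ := fun v => by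
    obtain ⟨r, hr⟩ := (toUnit (G.j₀ K ''ᵁ ⊤)).surjective (e.toEquiv v)
    obtain ⟨a, rfl⟩ := (secHom_bijective (G.j₀ K)).surjective r
    exact ⟨a, e.toEquiv.injective (hr.symm.trans (key a).symm)⟩
  have hp : ∀ a : G.model.A K, a • u₀ ∈ X.p ↔ a ∈ G.model.Cp K := fun a => by
    rw [e.mem_p, key]
    constructor
    · rintro ⟨s, hs⟩
      obtain ⟨r, rfl⟩ := (toUnit (G.jp K ''ᵁ ⊤)).surjective s
      obtain ⟨b, rfl⟩ := (secHom_bijective (G.jp K)).surjective r
      replace hs := (secHom_bijective (G.j₀ K)).injective ((G.res_p K b).symm.trans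
        ((toUnit (G.j₀ K ''ᵁ ⊤)).injective hs))
      exact hs ▸ b.2
    · exact fun ha => ⟨toUnit _ (secHom (G.jp K) ⟨a, ha⟩),
        congrArg (toUnit _) (G.res_p K ⟨a, ha⟩)⟩
  have hm : ∀ a : G.model.A K, a • u₀ ∈ X.m ↔ a ∈ G.model.Cm K := fun a => by
    rw [e.mem_m, key]
    constructor
    · rintro ⟨s, hs⟩
      obtain ⟨r, rfl⟩ := (toUnit (G.jm K ''ᵁ ⊤)).surjective s
      obtain ⟨b, rfl⟩ := (secHom_bijective (G.jm K)).surjective r
      replace hs := (secHom_bijective (G.j₀ K)).injective ((G.res_m K b).symm.trans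
        ((toUnit (G.j₀ K ''ᵁ ⊤)).injective hs))
      exact hs ▸ b.2
    · exact fun ha => ⟨toUnit _ (secHom (G.jm K) ⟨a, ha⟩),
        congrArg (toUnit _) (G.res_m K ⟨a, ha⟩)⟩
  let f : G.model.A k →+ X.M :=
    { toFun := fun a => G.model.mapA (Algebra.ofId k K) a • u₀
      map_zero' := by rw [map_zero]; exact zero_smul (G.model.A K) u₀
      map_add' := fun a b => by rw [map_add, add_smul] }
  have hf : ∀ (r : K) (a : G.model.A₀), (r ⊗ₜ[k] a : G.model.A K) • u₀ = r • f (1 ⊗ₜ a) := by
    intro r a
    have : (r ⊗ₜ[k] a : G.model.A K) =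
        algebraMap K (G.model.A K) r * G.model.mapA (Algebra.ofId k K) (1 ⊗ₜ a) := by
      simp [Model.mapA]
    rw [this, mul_smul, algebraMap_smul]
    rfl
  refine ⟨{
    toFun := f
    map_smul := fun a v => ?_
    map_p := fun v hv => (hp _).mpr ?_
    map_m := fun v hv => (hm _).mpr ?_
    span_p := fun v hv => ?_
    span_m := fun v hv => ?_ }⟩
  · refine Eq.trans ?_ (mul_smul _ _ u₀)
    exact congrArg (· • u₀) (map_mul (G.model.mapA (Algebra.ofId k K)) a v)
  · refine G.model.Cp_induction (P := fun v => G.model.mapA (Algebra.ofId k K) v ∈ G.model.Cp K)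
      hv (fun r a ha => ?_) fun v w h h' => ?_
    · simpa [Model.mapA] using G.model.tmul_mem_Cp K (algebraMap k K r) ha
    · rw [map_add]; exact add_mem h h'
  · refine G.model.swap.Cp_induction (P := fun v => G.model.mapA (Algebra.ofId k K) v ∈ G.model.Cm K)
      hv (fun r a ha => ?_) fun v w h h' => ?_
    · simpa [Model.mapA] using G.model.tmul_mem_Cm K (algebraMap k K r) ha
    · rw [map_add]; exact add_mem h h'
  · obtain ⟨a, rfl⟩ := hgen v
    refine G.model.Cp_induction (P := fun a => a • u₀ ∈ Submodule.span K _) ((hp a).mp hv)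
      (fun r a ha => ?_) fun v w h h' => by rw [add_smul]; exact add_mem h h'
    rw [hf]
    exact Submodule.smul_mem _ _ (Submodule.subset_span ⟨_, G.model.tmul_mem_Cp k 1 ha, rfl⟩)
  · obtain ⟨a, rfl⟩ := hgen v
    refine G.model.swap.Cp_induction (P := fun a => (show G.model.A K from a) • u₀ ∈ Submodule.span K _) ((hm a).mp hv)
      (fun r a ha => ?_) fun v w h h' => by rw [add_smul]; exact add_mem h h'
    rw [hf]
    exact Submodule.smul_mem _ _ (Submodule.subset_span ⟨_, G.model.tmul_mem_Cm k 1 ha, rfl⟩)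

/-- The structure sheaf has degree zero. -/
theorem unitDegZero : UnitDegZero G where
  deg K _ _ X hX := by
    obtain ⟨F⟩ := nonempty_bc_unitTriple G K X hX
    exact F.deg_eq.trans G.model.unitTriple_deg

end Fermat.Agent.RelPic
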