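import Fermat.Agent.RelPic.Dict.Charts
import Fermat.Agent.RelPic.Contracts

/-!
# Affine points of a scheme over `k`, and pullbacks of rigidified bundles along them
-/

set_option autoImplicit false

noncomputable section

universe u

open CategoryTheory CategoryTheory.Limits AlgebraicGeometry AlgebraicGeometry.RelPicard NeronModelInfra

namespace Fermat.Agent.RelPic

variable {k : Type u} [Field k]

/-- The algebra structure given by a morphism to `Spec k`. -/
@[implicit_reducible]
def algOf {R : Type u} [CommRing R] (t : Spec (CommRingCat.of R) ⟶ Spec (CommRingCat.of k)) :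
    Algebra k R :=
  (Spec.preimage t).hom.toAlgebra

theorem str_algOf {R : Type u} [CommRing R]
    (t : Spec (CommRingCat.of R) ⟶ Spec (CommRingCat.of k)) :
    letI := algOf t
    str k R = t := by
  let := algOf t
  show Spec.map (Spec.preimage t) = t
  exact Spec.map_preimage t

variable {R R' : Type u} [CommRing R] [Algebra k R] [CommRing R'] [Algebra k R']

/-- A morphism of `k`-algebras as a morphism of spectra over `k`. -/
def specOver (φ : R →ₐ[k] R') : SchemeHomOver (str k R') (str k R) :=
  ⟨specHom φ, by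
    rw [← Spec.map_comp]
    congr 1
    ext x
    exact φ.commutes x⟩

theorem specOver_surjective :
    Function.Surjective (specOver : (R →ₐ[k] R') → SchemeHomOver (str k R') (str k R)) := by
  intro g
  have h2 := g.2
  rw [← Spec.map_preimage g.1, ← Spec.map_comp] at h2
  refine ⟨{ (Spec.preimage g.1).hom with
    commutes' := fun r => congr($(Spec.map_injective h2).hom r) }, Subtype.ext ?_⟩
  exact Spec.map_preimage g.1

theorem specOver_injective :
    Function.Injective (specOver : (R →ₐ[k] R') → SchemeHomOver (str k R') (str k R)) := by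
  intro φ ψ h
  have h1 := Spec.map_injective (congrArg Subtype.val h)
  exact AlgHom.ext fun x => congr($(h1).hom x)

theorem specOver_id : specOver (AlgHom.id k R) = ⟨𝟙 _, Category.id_comp _⟩ :=
  Subtype.ext (Spec.map_id _)

variable {C : Scheme.{u}} {c : C ⟶ Spec (CommRingCat.of k)}
  {ε : SchemeHomOver (𝟙 (Spec (CommRingCat.of k))) c}
  {T T' T'' : Scheme.{u}} {t : T ⟶ Spec (CommRingCat.of k)} {t' : T' ⟶ Spec (CommRingCat.of k)}
  {t'' : T'' ⟶ Spec (CommRingCat.of k)}

theorem pullbackAlong_comp (M : RigidifiedLineBundle c ε t) (φ : SchemeHomOver t' t)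
    (ψ : SchemeHomOver t'' t') :
    Nonempty (((M.pullbackAlong φ).pullbackAlong ψ).L ≅ (M.pullbackAlong (postComp φ ψ)).L) :=
  ⟨(Scheme.Modules.pullbackComp _ _).app M.L ≪≫
    (Scheme.Modules.pullbackCongr (baseChangeSnd_comp c φ ψ)).app M.L⟩

theorem pullbackAlong_id (M : RigidifiedLineBundle c ε t) (φ : SchemeHomOver t t)
    (hφ : φ.1 = 𝟙 T) : Nonempty ((M.pullbackAlong φ).L ≅ M.L) := by
  obtain ⟨φ, h⟩ := φ
  obtain rfl : φ = 𝟙 T := hφ
  exact ⟨(Scheme.Modules.pullbackCongr (baseChangeSnd_id c t)).app M.L ≪≫
    (Scheme.Modules.pullbackId _).app M.L⟩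

theorem pullbackAlong_iso {M M' : RigidifiedLineBundle c ε t} (φ : SchemeHomOver t' t)
    (h : Nonempty (M.L ≅ M'.L)) : Nonempty ((M.pullbackAlong φ).L ≅ (M'.pullbackAlong φ).L) :=
  RigidifiedLineBundle.pullbackAlong_congr φ h

/-- The facts about affine bases used by the functor of points. -/
structure DictProps (G : GeomModel c ε) : Prop where
  exists_tripleOf : ∀ (R : Type u) [CommRing R] [Algebra k R]
    (M : RigidifiedLineBundle c ε (str k R)),
    ∃ T : Triple G.model R, TripleOf G R M.L T ∧ T.IsRigid G.e
  iso_iff : ∀ (R : Type u) [CommRing R] [Algebra k R] (L L' : (pullback c (str k R)).Modules)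
    (T T' : Triple G.model R), Scheme.Modules.IsInvertible L → Scheme.Modules.IsInvertible L' →
    TripleOf G R L T → TripleOf G R L' T' → (Nonempty (L ≅ L') ↔ Nonempty (T.Equiv T'))
  bc_iff : ∀ (R R' : Type u) [CommRing R] [Algebra k R] [CommRing R'] [Algebra k R']
    (φ : R →ₐ[k] R') (L : (pullback c (str k R)).Modules) (T : Triple G.model R)
    (T' : Triple G.model R'), Scheme.Modules.IsInvertible L → TripleOf G R L T →
    (TripleOf G R' ((Scheme.Modules.pullback (baseChangeSnd c (specOver φ))).obj L) T' ↔
      Nonempty (Triple.BC φ T T'))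
  exists_rigidified : ∀ (R : Type u) [CommRing R] [Algebra k R] (T : Triple G.model R),
    T.IsRigid G.e → ∃ M : RigidifiedLineBundle c ε (str k R), TripleOf G R M.L T
  exists_appTop_eq : ∀ (R : Type u) [CommRing R] [Algebra k R]
    (a : Γ(pullback c (str k R), ⊤)), ∃ b, (pullback.snd c (str k R)).appTop b = a

end Fermat.Agent.RelPic

end
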