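import Fermat.Agent.RelPic.Functor.Immersion
import Fermat.Prelude.Def_AlgebraicGeometry_RelativePicardFunctor

/-!
# Rigidifications on opens of the base

A trivialisation `e` of `σ^* N` on an open `W` of the base gives a morphism `ρ` from `N` to the
pushforward of the functions along the section, on the preimage of `W`, through which every such
morphism factors uniquely by a function on the base.  This gives normalised isomorphisms.
-/

set_option autoImplicit false

noncomputable section

universe u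

open CategoryTheory CategoryTheory.Limits AlgebraicGeometry AlgebraicGeometry.RelPicard
  NeronModelInfra TopologicalSpace Opposite

namespace Fermat.Agent.RelPic

section General

variable {T X : Scheme.{u}} (f : T ⟶ X) {A B : T.Modules}

/-- A section of a pushforward. -/
def pullSec {M : T.Modules} {V : X.Opens} (y : Γ((Scheme.Modules.pushforward f).obj M, V)) :
    Γ(M, f ⁻¹ᵁ V) := y

theorem pullSec_resSec {M : T.Modules} {V W : X.Opens} (h : W ≤ V)
    (y : Γ((Scheme.Modules.pushforward f).obj M, V)) :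
    pullSec f (resSec ((Scheme.Modules.pushforward f).obj M) h y) =
      resSec M (show f ⁻¹ᵁ W ≤ f ⁻¹ᵁ V from fun _ hx => h hx) (pullSec f y) := rfl

/-- The pushforward of a morphism on an open. -/
def pushHom {W : T.Opens} (φ : HomOn A B W) (U : X.Opens)
    (hU : ∀ V : X.Opens, V ≤ U → f ⁻¹ᵁ V ≤ W) :
    HomOn ((Scheme.Modules.pushforward f).obj A) ((Scheme.Modules.pushforward f).obj B) U where
  app V hV :=
    { toFun := fun y => φ.app (f ⁻¹ᵁ V) (hU V hV) (pullSec f y)
      map_add' := fun a b => map_add (φ.app (f ⁻¹ᵁ V) (hU V hV)) (pullSec f a) (pullSec f b)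
      map_smul' := fun r y => (φ.app (f ⁻¹ᵁ V) (hU V hV)).map_smul (f.app V r) (pullSec f y) }
  natural V V' hV h y := φ.natural (f ⁻¹ᵁ V) (f ⁻¹ᵁ V') (hU V hV) (fun _ hx => h hx) (pullSec f y)

/-- The functions on the part of an open lying in `W`, as a module. -/
def truncO (W : T.Opens) : T.Modules :=
  (Scheme.Modules.pushforward W.ι).obj (unitMod W.toScheme)

/-- A section of `truncO`. -/
def mkTrunc {W V : T.Opens} (a : Γ(T, W.ι ''ᵁ W.ι ⁻¹ᵁ V)) : Γ(truncO W, V) := a

/-- The function underlying a section of `truncO`. -/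
def ofTrunc {W V : T.Opens} (a : Γ(truncO W, V)) : Γ(T, W.ι ''ᵁ W.ι ⁻¹ᵁ V) := a

theorem ofTrunc_smul {W V : T.Opens} (r : Γ(T, V)) (a : Γ(truncO W, V)) :
    ofTrunc (r • a) =
      T.presheaf.map (homOfLE (W.ι.image_preimage_le V)).op r * ofTrunc a := rfl

theorem ofTrunc_resSec {W V V' : T.Opens} (h : V' ≤ V) (a : Γ(truncO W, V)) :
    ofTrunc (resSec (truncO W) h a) =
      T.presheaf.map (homOfLE (W.ι.image_mono (show W.ι ⁻¹ᵁ V' ≤ W.ι ⁻¹ᵁ V from
        fun _ hx => h hx))).op (ofTrunc a) := rfl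

end General

variable {R : Type u} [CommRing R] {C : Scheme.{u}} (c : C ⟶ Spec (CommRingCat.of R))
  (ε : SchemeHomOver (𝟙 (Spec (CommRingCat.of R))) c)
  {T : Scheme.{u}} (t : T ⟶ Spec (CommRingCat.of R))

/-- The functions on the section, as a module on the family of curves. -/
def sigO : (pullback c t).Modules :=
  (Scheme.Modules.pushforward (rigSection c t ε)).obj (unitMod T)

variable {c ε t}

theorem rigSection_snd : rigSection c t ε ≫ pullback.snd c t = 𝟙 T := pullback.lift_snd _ _ _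

theorem sig_preimage_le {W : T.Opens} {V : (pullback c t).Opens}
    (hV : V ≤ pullback.snd c t ⁻¹ᵁ W) : rigSection c t ε ⁻¹ᵁ V ≤ W := fun x hx => by
  have h1 : (pullback.snd c t) (rigSection c t ε x) ∈ W := hV hx
  have h2 : (pullback.snd c t) (rigSection c t ε x) = x := by
    rw [← Scheme.Hom.comp_apply, rigSection_snd]
    rfl
  rwa [h2] at h1

/-- A function on the base as a function on the family. -/
def baseFun (W : T.Opens) : Γ(T, W) →+* Γ(pullback c t, pullback.snd c t ⁻¹ᵁ W) :=
  ((pullback.snd c t).app W).hom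

theorem appLE_of_eq_id {f : T ⟶ T} (h : f = 𝟙 T) {U V : T.Opens} (e : V ≤ f ⁻¹ᵁ U)
    (e' : V ≤ U) : f.appLE U V e = T.presheaf.map (homOfLE e').op := by
  subst h
  simp [Scheme.Hom.appLE]
  rfl

theorem sig_baseFun {W : T.Opens} {V : (pullback c t).Opens}
    (hV : V ≤ pullback.snd c t ⁻¹ᵁ W) (v : Γ(T, W)) :
    (rigSection c t ε).app V ((pullback c t).presheaf.map (homOfLE hV).op (baseFun W v)) =
      T.presheaf.map (homOfLE (sig_preimage_le (ε := ε) hV)).op v := by
  have h : ((pullback.snd c t).appLE W V hV ≫ (rigSection c t ε).appLE V _ le_rfl) v =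
      T.presheaf.map (homOfLE (sig_preimage_le (ε := ε) hV)).op v := by
    rw [Scheme.Hom.appLE_comp_appLE,
      appLE_of_eq_id (rigSection_snd (c := c) (ε := ε) (t := t)) _ (sig_preimage_le hV)]
  rw [Scheme.Hom.appLE_eq_app] at h
  exact h

/-- The function underlying a section of `sigO`. -/
def ofSig {V : (pullback c t).Opens} (y : Γ(sigO c ε t, V)) :
    Γ(T, rigSection c t ε ⁻¹ᵁ V) := ofUnit (pullSec (rigSection c t ε) (M := unitMod T) y)

theorem ofSig_smul {V : (pullback c t).Opens} (r : Γ(pullback c t, V)) (y : Γ(sigO c ε t, V)) :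
    ofSig (r • y) = (rigSection c t ε).app V r * ofSig y := rfl

theorem ofSig_resSec {V V' : (pullback c t).Opens} (h : V' ≤ V) (y : Γ(sigO c ε t, V)) :
    ofSig (resSec (sigO c ε t) h y) =
      T.presheaf.map (homOfLE (show rigSection c t ε ⁻¹ᵁ V' ≤ rigSection c t ε ⁻¹ᵁ V from
        fun _ hx => h hx)).op (ofSig y) := rfl

theorem ofSig_injective {V : (pullback c t).Opens} :
    Function.Injective (ofSig (ε := ε) (V := V)) := fun _ _ h => h

variable {N : (pullback c t).Modules} {W : T.Opens}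

/-- The unit of the adjunction of the section. -/
def sigUnit (ε : SchemeHomOver (𝟙 (Spec (CommRingCat.of R))) c) (N : (pullback c t).Modules) :
    N ⟶ (Scheme.Modules.pushforward (rigSection c t ε)).obj
      ((Scheme.Modules.pullback (rigSection c t ε)).obj N) :=
  (Scheme.Modules.pullbackPushforwardAdjunction (rigSection c t ε)).unit.app N

/-- The morphism to `sigO` of a trivialisation along the section. -/
def rhoOf (e : HomOn ((Scheme.Modules.pullback (rigSection c t ε)).obj N) (unitMod T) W) :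
    HomOn N (sigO c ε t) (pullback.snd c t ⁻¹ᵁ W) :=
  (HomOn.ofHom (sigUnit ε N) _).comp
    (pushHom (rigSection c t ε) e _ fun _ hV => sig_preimage_le hV)

theorem ofSig_rhoOf (e : HomOn ((Scheme.Modules.pullback (rigSection c t ε)).obj N) (unitMod T) W)
    (V : (pullback c t).Opens) (hV : V ≤ pullback.snd c t ⁻¹ᵁ W) (x : Γ(N, V)) :
    ofSig ((rhoOf e).app V hV x) = ofUnit (e.app (rigSection c t ε ⁻¹ᵁ V) (sig_preimage_le hV)
      (pullSec (rigSection c t ε) ((sigUnit ε N).app V x))) := rfl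

theorem ofSig_smul_rho {W' : T.Opens}
    (ρ : HomOn N (sigO c ε t) (pullback.snd c t ⁻¹ᵁ W')) (v : Γ(T, W'))
    (V : (pullback c t).Opens) (hV : V ≤ pullback.snd c t ⁻¹ᵁ W') (x : Γ(N, V)) :
    ofSig (((smulOn N (baseFun W' v)).comp ρ).app V hV x) =
      T.presheaf.map (homOfLE (sig_preimage_le (ε := ε) hV)).op v * ofSig (ρ.app V hV x) := by
  rw [HomOn.comp_app, smulOn_app, map_smul, ofSig_smul, sig_baseFun]

theorem preimage_le_of_le {W' W : T.Opens} (h : W' ≤ W) :
    pullback.snd c t ⁻¹ᵁ W' ≤ pullback.snd c t ⁻¹ᵁ W := fun _ hx => h hx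

theorem trunc_le {W' : T.Opens} (V : (pullback c t).Opens) :
    W'.ι ''ᵁ W'.ι ⁻¹ᵁ (rigSection c t ε ⁻¹ᵁ V) ≤
      rigSection c t ε ⁻¹ᵁ (V ⊓ pullback.snd c t ⁻¹ᵁ W') := fun x hx => by
  refine ⟨(W'.ι.image_preimage_le _) hx, ?_⟩
  show (pullback.snd c t) (rigSection c t ε x) ∈ W'
  rw [← Scheme.Hom.comp_apply, rigSection_snd]
  exact W'.ι_image_le _ hx

theorem trunc_app_mul {W' : T.Opens} {V : (pullback c t).Opens} (r : Γ(pullback c t, V))
    (a : Γ(T, rigSection c t ε ⁻¹ᵁ (V ⊓ pullback.snd c t ⁻¹ᵁ W'))) :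
    T.presheaf.map (homOfLE (trunc_le V)).op ((rigSection c t ε).app _
      ((pullback c t).presheaf.map (homOfLE inf_le_left).op r) * a) =
    T.presheaf.map (homOfLE (W'.ι.image_preimage_le _)).op ((rigSection c t ε).app V r) *
      T.presheaf.map (homOfLE (trunc_le V)).op a := by
  rw [map_mul]
  congr 1
  simp only [← Scheme.Hom.appLE_eq_app, ← CommRingCat.comp_apply, Scheme.Hom.map_appLE,
    Scheme.Hom.appLE_map]

theorem mkTrunc_add {W V : T.Opens} (a b : Γ(T, W.ι ''ᵁ W.ι ⁻¹ᵁ V)) :
    mkTrunc (a + b) = mkTrunc a + mkTrunc b := rfl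

theorem mkTrunc_smul {W V : T.Opens} (r : Γ(T, V)) (a : Γ(T, W.ι ''ᵁ W.ι ⁻¹ᵁ V)) :
    mkTrunc (T.presheaf.map (homOfLE (W.ι.image_preimage_le V)).op r * a) = r • mkTrunc a := rfl

theorem mkTrunc_resSec {W V V' : T.Opens} (h : V' ≤ V) (a : Γ(T, W.ι ''ᵁ W.ι ⁻¹ᵁ V)) :
    resSec (truncO W) h (mkTrunc a) =
      mkTrunc (T.presheaf.map (homOfLE (W.ι.image_mono (show W.ι ⁻¹ᵁ V' ≤ W.ι ⁻¹ᵁ V from
        fun _ hx => h hx))).op a) := rfl

theorem mkTrunc_inj {W V : T.Opens} {a b : Γ(T, W.ι ''ᵁ W.ι ⁻¹ᵁ V)} :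
    mkTrunc a = mkTrunc b ↔ a = b := Iff.rfl

/-- A section of a pushforward along the section. -/
def toPush {M : T.Modules} {V : (pullback c t).Opens} (y : Γ(M, rigSection c t ε ⁻¹ᵁ V)) :
    Γ((Scheme.Modules.pushforward (rigSection c t ε)).obj M, V) := y

theorem toPush_add {M : T.Modules} {V : (pullback c t).Opens}
    (y z : Γ(M, rigSection c t ε ⁻¹ᵁ V)) :
    toPush (ε := ε) (y + z) = toPush y + toPush z := rfl

theorem toPush_smul {M : T.Modules} {V : (pullback c t).Opens} (r : Γ(pullback c t, V))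
    (y : Γ(M, rigSection c t ε ⁻¹ᵁ V)) :
    toPush (ε := ε) ((rigSection c t ε).app V r • y) = r • toPush y := rfl

/-- The value of an extended morphism. -/
def truncFun {W' : T.Opens} (ψ : HomOn N (sigO c ε t) (pullback.snd c t ⁻¹ᵁ W'))
    (V : (pullback c t).Opens) (x : Γ(N, V)) :
    Γ(T, W'.ι ''ᵁ W'.ι ⁻¹ᵁ (rigSection c t ε ⁻¹ᵁ V)) :=
  T.presheaf.map (homOfLE (trunc_le V)).op
    (ofSig (ψ.app (V ⊓ pullback.snd c t ⁻¹ᵁ W') inf_le_right (resSec N inf_le_left x)))

theorem truncFun_add {W' : T.Opens} (ψ : HomOn N (sigO c ε t) (pullback.snd c t ⁻¹ᵁ W'))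
    (V : (pullback c t).Opens) (x y : Γ(N, V)) :
    truncFun ψ V (x + y) = truncFun ψ V x + truncFun ψ V y := by
  simp only [truncFun, map_add]
  exact map_add (T.presheaf.map (homOfLE (trunc_le V)).op).hom _ _

theorem truncFun_smul {W' : T.Opens} (ψ : HomOn N (sigO c ε t) (pullback.snd c t ⁻¹ᵁ W'))
    (V : (pullback c t).Opens) (r : Γ(pullback c t, V)) (x : Γ(N, V)) :
    truncFun ψ V (r • x) =
      T.presheaf.map (homOfLE (W'.ι.image_preimage_le _)).op ((rigSection c t ε).app V r) *
        truncFun ψ V x := by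
  simp only [truncFun, resSec_smul, map_smul, ofSig_smul]
  exact trunc_app_mul r _

theorem truncFun_resSec {W' : T.Opens} (ψ : HomOn N (sigO c ε t) (pullback.snd c t ⁻¹ᵁ W'))
    {V V' : (pullback c t).Opens} (h : V' ≤ V) (x : Γ(N, V)) :
    truncFun ψ V' (resSec N h x) =
      T.presheaf.map (homOfLE (W'.ι.image_mono (show W'.ι ⁻¹ᵁ (rigSection c t ε ⁻¹ᵁ V') ≤
        W'.ι ⁻¹ᵁ (rigSection c t ε ⁻¹ᵁ V) from fun _ hx => h hx))).op (truncFun ψ V x) := by
  rw [truncFun, truncFun, resSec_resSec, resRing_resRing,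
    ← resSec_resSec N (inf_le_left : V ⊓ pullback.snd c t ⁻¹ᵁ W' ≤ V)
      (inf_le_inf_right _ h : V' ⊓ pullback.snd c t ⁻¹ᵁ W' ≤ V ⊓ pullback.snd c t ⁻¹ᵁ W'),
    ψ.natural, ofSig_resSec, resRing_resRing]

/-- A morphism to `sigO` on a preimage, extended to a morphism to the truncated functions. -/
def extendTrunc {W' : T.Opens} (ψ : HomOn N (sigO c ε t) (pullback.snd c t ⁻¹ᵁ W')) :
    N ⟶ (Scheme.Modules.pushforward (rigSection c t ε)).obj (truncO W') :=
  homOfApp (fun V =>
    { toFun := fun x => toPush (mkTrunc (truncFun ψ V x))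
      map_add' := fun x y => by rw [truncFun_add, mkTrunc_add, toPush_add]
      map_smul' := fun r x => by
        rw [truncFun_smul, mkTrunc_smul, toPush_smul, RingHom.id_apply] })
    fun V V' h x => by
      show mkTrunc (truncFun ψ V' (resSec N h x)) = _
      rw [truncFun_resSec]
      exact (mkTrunc_resSec (show rigSection c t ε ⁻¹ᵁ V' ≤ rigSection c t ε ⁻¹ᵁ V from
        fun _ hx => h hx) _).symm

/-- Every morphism to `sigO` is uniquely a multiple of `rhoOf` by a function on the base. -/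
theorem existsUnique_smul_rhoOf
    (e : IsoOn ((Scheme.Modules.pullback (rigSection c t ε)).obj N) (unitMod T) W) (W' : T.Opens)
    (h : W' ≤ W) (ψ : HomOn N (sigO c ε t) (pullback.snd c t ⁻¹ᵁ W')) :
    ∃! v : Γ(T, W'),
      (smulOn N (baseFun W' v)).comp ((rhoOf e.hom).restrict (preimage_le_of_le h)) = ψ := by
  set adj := Scheme.Modules.pullbackPushforwardAdjunction (rigSection c t ε) with hadj
  set f := (adj.homEquiv N (truncO W')).symm (extendTrunc ψ) with hf
  set s := e.inv.app W' h (secUnit (1 : Γ(T, W'))) with hs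
  refine ⟨T.presheaf.map (homOfLE (le_image_preimage le_rfl)).op (ofTrunc (f.app W' s)), ?_, ?_⟩
  · refine HomOn.ext' fun V hV x => ofSig_injective ?_
    rw [ofSig_smul_rho, HomOn.restrict_app, ofSig_rhoOf, resRing_resRing]
    have hVW : rigSection c t ε ⁻¹ᵁ V ≤ W' := sig_preimage_le hV
    set y := pullSec (rigSection c t ε) ((sigUnit ε N).app V x) with hy
    set a := ofUnit (e.hom.app _ (hVW.trans h) y) with ha
    have hya : y = a • resSec _ hVW s := by
      apply (e.appEquiv _ (hVW.trans h)).injective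
      rw [map_smul]
      show e.hom.app _ _ y = a • e.hom.app _ _ (resSec _ hVW s)
      rw [e.hom.natural W' _ h hVW, hs, e.hom_inv_app, resSec_secUnit_one, ha, ← eq_smul_one]
    have h1 : (extendTrunc ψ).app V x = (adj.homEquiv N (truncO W') f).app V x := by
      rw [hf, Equiv.apply_symm_apply]
    rw [Adjunction.homEquiv_unit] at h1
    have h2 : ofTrunc (pullSec (rigSection c t ε) (M := truncO W') ((extendTrunc ψ).app V x)) =
        ofTrunc (f.app (rigSection c t ε ⁻¹ᵁ V) y) := congrArg ofTrunc h1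
    rw [hya, Scheme.Modules.Hom.app_smul, ofTrunc_smul, app_resSec, ofTrunc_resSec] at h2
    change truncFun ψ V x = _ at h2
    unfold truncFun at h2
    rw [ψ.natural _ _ hV, ofSig_resSec] at h2
    have h3 := congrArg (T.presheaf.map (homOfLE (le_image_preimage (U := W') hVW)).op) h2
    rw [map_mul, resRing_resRing, resRing_resRing, resRing_resRing, resRing_resRing,
      resRing_self, resRing_self] at h3
    rw [h3, mul_comm]
  · intro v hv
    let g : (Scheme.Modules.pullback (rigSection c t ε)).obj N ⟶ truncO W' :=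
      homOfApp (fun V =>
        { toFun := fun y => mkTrunc (T.presheaf.map (homOfLE (W'.ι_image_le _)).op v *
            ofUnit (e.hom.app _ ((W'.ι_image_le _).trans h)
              (resSec _ (W'.ι.image_preimage_le V) y)))
          map_add' := fun x y => by
            simp only [map_add]
            rw [← mkTrunc_add, mkTrunc_inj]
            exact left_distrib (R := Γ(T, _)) _ _ _
          map_smul' := fun r y => by
            simp only [RingHom.id_apply, resSec_smul, map_smul, ofUnit_smul]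
            rw [← mkTrunc_smul, mkTrunc_inj]
            exact mul_left_comm _ _ _ })
        fun V V' hV y => by
          show mkTrunc (T.presheaf.map (homOfLE (W'.ι_image_le _)).op v * _) =
            resSec (truncO W') hV (mkTrunc (T.presheaf.map _ v * _))
          rw [mkTrunc_resSec]
          congr 1
          rw [map_mul, resRing_resRing, ← ofUnit_resSec, ← e.hom.natural, resSec_resSec,
            resSec_resSec]
    have hg : f = g := by
      rw [hf, Equiv.symm_apply_eq, Adjunction.homEquiv_unit]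
      ext V x
      show truncFun ψ V x =
        ofTrunc (g.app (rigSection c t ε ⁻¹ᵁ V) (pullSec _ ((sigUnit ε N).app V x)))
      unfold truncFun
      rw [← hv, ofSig_smul_rho, HomOn.restrict_app, ofSig_rhoOf, map_mul, resRing_resRing,
        app_resSec, pullSec_resSec, ← ofUnit_resSec, ← e.hom.natural, resSec_resSec]
      rfl
    rw [hg]
    show v = T.presheaf.map _ (T.presheaf.map _ v * ofUnit (e.hom.app _ _ (resSec _ _ s)))
    rw [e.hom.natural W' _ h, hs, e.hom_inv_app, resSec_secUnit_one]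
    show v = T.presheaf.map _ (T.presheaf.map _ v * 1)
    rw [mul_one, resRing_resRing, resRing_self]

theorem rhoOf_restrict
    (e : HomOn ((Scheme.Modules.pullback (rigSection c t ε)).obj N) (unitMod T) W) {W' : T.Opens}
    (h : W' ≤ W) : (rhoOf e).restrict (preimage_le_of_le h) = rhoOf (e.restrict h) := rfl

theorem smulOn_rhoOf
    (e : HomOn ((Scheme.Modules.pullback (rigSection c t ε)).obj N) (unitMod T) W) (v : Γ(T, W)) :
    (smulOn N (baseFun W v)).comp (rhoOf e) = rhoOf (e.comp (smulOn (unitMod T) v)) :=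
  HomOn.ext' fun V hV x => ofSig_injective (by
    rw [ofSig_smul_rho, ofSig_rhoOf, ofSig_rhoOf, HomOn.comp_app, smulOn_app, ofUnit_smul])

/-- A universal morphism to `sigO` on the preimage of an open of the base. -/
structure Rig (ε : SchemeHomOver (𝟙 (Spec (CommRingCat.of R))) c) (N : (pullback c t).Modules)
    (W : T.Opens) where
  /-- The morphism. -/
  rho : HomOn N (sigO c ε t) (pullback.snd c t ⁻¹ᵁ W)
  up : ∀ (W' : T.Opens) (h : W' ≤ W) (ψ : HomOn N (sigO c ε t) (pullback.snd c t ⁻¹ᵁ W')),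
    ∃! v : Γ(T, W'), (smulOn N (baseFun W' v)).comp (rho.restrict (preimage_le_of_le h)) = ψ

/-- The universal morphism of a trivialisation along the section. -/
def Rig.ofIsoOn (e : IsoOn ((Scheme.Modules.pullback (rigSection c t ε)).obj N) (unitMod T) W) :
    Rig ε N W where
  rho := rhoOf e.hom
  up := existsUnique_smul_rhoOf e

namespace Rig

variable {N' N'' : (pullback c t).Modules} {W' : T.Opens} (r : Rig ε N W)

/-- Restriction to a smaller open. -/
def restrict (h : W' ≤ W) : Rig ε N W' where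
  rho := r.rho.restrict (preimage_le_of_le h)
  up W'' h' ψ := r.up W'' (h'.trans h) ψ

/-- Transport along an isomorphism. -/
def transport (φ : IsoOn N' N (pullback.snd c t ⁻¹ᵁ W)) : Rig ε N' W where
  rho := φ.hom.comp r.rho
  up W' h ψ := by
    obtain ⟨v, hv, hu⟩ := r.up W' h ((φ.inv.restrict (preimage_le_of_le h)).comp ψ)
    refine ⟨v, ?_, fun v' hv' => hu v' ?_⟩
    · show (smulOn N' _).comp ((φ.hom.comp r.rho).restrict _) = ψ
      rw [HomOn.restrict_comp, ← HomOn.comp_assoc, smulOn_comp, HomOn.comp_assoc, hv]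
      exact HomOn.ext' fun V hV x => congrArg _ (φ.inv_hom_app V _ x)
    · show (smulOn N _).comp (r.rho.restrict _) = _
      rw [← hv', HomOn.restrict_comp, ← HomOn.comp_assoc, ← HomOn.comp_assoc, ← smulOn_comp,
        HomOn.comp_assoc (smulOn N _)]
      refine HomOn.ext' fun V hV x => ?_
      simp only [HomOn.comp_app, HomOn.restrict_app, smulOn_app, φ.hom_inv_app]

variable {r}

theorem ext_smul {h : W' ≤ W} {v v' : Γ(T, W')}
    (hv : (smulOn N (baseFun W' v)).comp (r.rho.restrict (preimage_le_of_le h)) =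
      (smulOn N (baseFun W' v')).comp (r.rho.restrict (preimage_le_of_le h))) : v = v' :=
  (r.up W' h _).unique hv rfl

variable (r)

theorem smul_one_rho :
    (smulOn N (baseFun W 1)).comp (r.rho.restrict (preimage_le_of_le le_rfl)) = r.rho := by
  rw [map_one, smulOn_one]
  rfl

theorem exists_unit (r' : Rig ε N W) :
    ∃ v : Γ(T, W)ˣ, (smulOn N (baseFun W v)).comp r.rho = r'.rho := by
  obtain ⟨v, hv, -⟩ := r.up W le_rfl r'.rho
  obtain ⟨w, hw, -⟩ := r'.up W le_rfl r.rho
  change (smulOn N _).comp r.rho = _ at hv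
  change (smulOn N _).comp r'.rho = _ at hw
  have h : v * w = 1 := by
    refine r.ext_smul (h := le_rfl) ?_
    rw [r.smul_one_rho]
    show (smulOn N (baseFun W (v * w))).comp r.rho = _
    rw [map_mul, smulOn_mul, HomOn.comp_assoc, hv, hw]
  exact ⟨Units.mkOfMulEqOne v w h, hv⟩

/-- An isomorphism compatible with two universal morphisms. -/
def Normalised (r' : Rig ε N' W) (φ : IsoOn N N' (pullback.snd c t ⁻¹ᵁ W)) : Prop :=
  φ.hom.comp r'.rho = r.rho

variable {r}

theorem Normalised.symm {r' : Rig ε N' W} {φ : IsoOn N N' (pullback.snd c t ⁻¹ᵁ W)}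
    (h : r.Normalised r' φ) : r'.Normalised r φ.symm := by
  unfold Normalised
  rw [← h]
  exact HomOn.ext' fun V hV x => congrArg _ (φ.hom_inv_app V hV x)

theorem Normalised.trans {r' : Rig ε N' W} {r'' : Rig ε N'' W}
    {φ : IsoOn N N' (pullback.snd c t ⁻¹ᵁ W)} {φ' : IsoOn N' N'' (pullback.snd c t ⁻¹ᵁ W)}
    (h : r.Normalised r' φ) (h' : r'.Normalised r'' φ') : r.Normalised r'' (φ.trans φ') := by
  unfold Normalised
  show (φ.hom.comp φ'.hom).comp r''.rho = _
  rw [HomOn.comp_assoc, show φ'.hom.comp r''.rho = r'.rho from h', show _ = r.rho from h]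

theorem Normalised.restrict {r' : Rig ε N' W} {φ : IsoOn N N' (pullback.snd c t ⁻¹ᵁ W)}
    (h : r.Normalised r' φ) (hW : W' ≤ W) :
    (r.restrict hW).Normalised (r'.restrict hW) (φ.restrict (preimage_le_of_le hW)) :=
  congrArg (fun ψ : HomOn N (sigO c ε t) _ => ψ.restrict (preimage_le_of_le hW)) h

variable (r)

/-- An isomorphism can be normalised. -/
theorem exists_normalised (r' : Rig ε N' W)
    (h : Nonempty (IsoOn N N' (pullback.snd c t ⁻¹ᵁ W))) :
    ∃ φ : IsoOn N N' (pullback.snd c t ⁻¹ᵁ W), r.Normalised r' φ := by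
  obtain ⟨φ⟩ := h
  obtain ⟨v, hv⟩ := (r'.transport φ).exists_unit r
  exact ⟨(smulIso N (Units.map (baseFun W).toMonoidHom v)).trans φ,
    (HomOn.comp_assoc _ _ _).trans hv⟩

variable {r}

/-- Normalised isomorphisms are unique. -/
theorem Normalised.unique (hbase : Function.Surjective (baseFun (c := c) (t := t) W))
    (hN : ∀ y ∈ pullback.snd c t ⁻¹ᵁ W, ∃ V, y ∈ V ∧ Nonempty (IsoOn N (unitMod _) V))
    {r' : Rig ε N' W}
    {φ φ' : IsoOn N N' (pullback.snd c t ⁻¹ᵁ W)} (h : r.Normalised r' φ)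
    (h' : r.Normalised r' φ') : φ = φ' := by
  obtain ⟨x, hx⟩ := exists_eq_smulOn hN (φ.hom.comp φ'.inv)
  obtain ⟨v, rfl⟩ := hbase x
  have hv : v = 1 := by
    refine r.ext_smul (h := le_rfl) ?_
    rw [r.smul_one_rho]
    show (smulOn N _).comp r.rho = _
    rw [← hx, HomOn.comp_assoc,
      show φ'.inv.comp r.rho = r'.rho from Normalised.symm h']
    exact h
  rw [hv, map_one, smulOn_one] at hx
  refine IsoOn.ext_hom (HomOn.ext' fun V hV y => ?_)
  have h1 : φ'.inv.app V hV (φ.hom.app V hV y) = y :=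
    LinearMap.congr_fun (congrFun (congrFun (congrArg HomOn.app hx) V) hV) y
  exact (φ'.hom_inv_app V hV _).symm.trans (congrArg _ h1)

end Rig

/-- A family of universal morphisms agreeing on overlaps gives a rigidification. -/
theorem nonempty_iso_unit_of_rig {ι : Type*} (U : ι → T.Opens) (hU : ⊤ ≤ ⨆ i, U i)
    (e : ∀ i, IsoOn ((Scheme.Modules.pullback (rigSection c t ε)).obj N) (unitMod T) (U i))
    (r : ∀ i, Rig ε N (U i))
    (hr : ∀ i j, ((r i).restrict (inf_le_left : U i ⊓ U j ≤ U i)).rho =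
      ((r j).restrict (inf_le_right : U i ⊓ U j ≤ U j)).rho) :
    Nonempty ((Scheme.Modules.pullback (rigSection c t ε)).obj N ≅ unitMod T) := by
  choose v hv using fun i => (Rig.ofIsoOn (e i)).exists_unit (r i)
  let e' := fun i => (e i).trans (smulIso (unitMod T) (v i))
  have he' : ∀ i, rhoOf (e' i).hom = (r i).rho := fun i => by
    rw [← hv i]
    exact (smulOn_rhoOf _ _).symm
  refine ⟨(IsoOn.glue U (fun i => le_top) hU e' fun i j => IsoOn.ext_hom ?_).toIso⟩
  set a := (e' i).restrict (inf_le_left : U i ⊓ U j ≤ U i)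
  set b := (e' j).restrict (inf_le_right : U i ⊓ U j ≤ U j)
  have hab : rhoOf a.hom = rhoOf b.hom := by
    show rhoOf ((e' i).hom.restrict (inf_le_left : U i ⊓ U j ≤ U i)) =
      rhoOf ((e' j).hom.restrict (inf_le_right : U i ⊓ U j ≤ U j))
    rw [← rhoOf_restrict, ← rhoOf_restrict, he', he']
    exact hr i j
  let x : Γ(T, U i ⊓ U j) := ofUnit ((b.inv.comp a.hom).app _ le_rfl (secUnit 1))
  have hx : b.hom.comp (smulOn (unitMod T) x) = a.hom := HomOn.ext' fun V hV y => by
    refine (homOn_unit_eq (b.inv.comp a.hom) V hV (b.hom.app V hV y)).symm.trans ?_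
    rw [HomOn.comp_app, b.inv_hom_app]
  have hx1 : x = 1 := by
    refine (Rig.ofIsoOn b).ext_smul (h := le_rfl) ?_
    rw [(Rig.ofIsoOn b).smul_one_rho]
    show (smulOn N _).comp (rhoOf b.hom) = rhoOf b.hom
    rw [smulOn_rhoOf, hx, hab]
  rw [← hx, hx1, smulOn_one]
  rfl

end Fermat.Agent.RelPic

end
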