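import Fermat.Agent.RelPic.Functor.Points
import Fermat.Agent.RelPic.Functor.Rigid

/-!
# Functions on the family of curves come from the base

Also: change of base of the family along an open immersion.
-/

set_option autoImplicit false
set_option linter.style.haveILetI false

noncomputable section

universe u

open CategoryTheory CategoryTheory.Limits AlgebraicGeometry AlgebraicGeometry.RelPicard
  NeronModelInfra TopologicalSpace Opposite

namespace Fermat.Agent.RelPic

section Square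

variable {R : Type u} [CommRing R] {C : Scheme.{u}} (c : C ⟶ Spec (CommRingCat.of R))
  {T T' : Scheme.{u}} {t : T ⟶ Spec (CommRingCat.of R)} {t' : T' ⟶ Spec (CommRingCat.of R)}
  (ψ : SchemeHomOver t' t)

theorem baseChangeSnd_fst :
    baseChangeSnd c ψ ≫ pullback.fst c t = pullback.fst c t' :=
  (pullback.lift_fst _ _ _).trans (Category.comp_id _)

theorem baseChangeSnd_snd :
    baseChangeSnd c ψ ≫ pullback.snd c t = pullback.snd c t' ≫ ψ.1 :=
  pullback.lift_snd _ _ _

theorem baseChangeSnd_isPullback :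
    IsPullback (baseChangeSnd c ψ) (pullback.snd c t') (pullback.snd c t) ψ.1 := by
  refine IsPullback.of_right ?_ (baseChangeSnd_snd c ψ) (IsPullback.of_hasPullback c t)
  rw [baseChangeSnd_fst, ψ.2]
  exact IsPullback.of_hasPullback c t'

instance isOpenImmersion_baseChangeSnd [IsOpenImmersion ψ.1] :
    IsOpenImmersion (baseChangeSnd c ψ) :=
  MorphismProperty.of_isPullback (baseChangeSnd_isPullback c ψ).flip inferInstance

theorem opensRange_baseChangeSnd [IsOpenImmersion ψ.1] :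
    (baseChangeSnd c ψ).opensRange = pullback.snd c t ⁻¹ᵁ ψ.1.opensRange := by
  rw [← Scheme.Hom.opensRange_pullbackFst (f := ψ.1) (g := pullback.snd c t)]
  ext1
  show Set.range (baseChangeSnd c ψ) = Set.range (pullback.fst (pullback.snd c t) ψ.1)
  conv_lhs => rw [← (baseChangeSnd_isPullback c ψ).isoPullback_hom_fst]
  rw [Scheme.Hom.comp_base, TopCat.coe_comp, Set.range_comp,
    Set.range_eq_univ.mpr (baseChangeSnd_isPullback c ψ).isoPullback.hom.surjective,
    Set.image_univ]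

end Square

theorem appLE_top_top {X Y : Scheme.{u}} (f : X ⟶ Y) (e : (⊤ : X.Opens) ≤ f ⁻¹ᵁ ⊤) :
    f.appLE ⊤ ⊤ e = f.appTop := by
  rw [Scheme.Hom.appTop, ← Scheme.Hom.appLE_eq_app]
  rfl

variable {k : Type u} [Field k] {C : Scheme.{u}} {c : C ⟶ Spec (CommRingCat.of k)}
  {ε : SchemeHomOver (𝟙 (Spec (CommRingCat.of k))) c} {G : GeomModel c ε}
  {T : Scheme.{u}} {t : T ⟶ Spec (CommRingCat.of k)}

/-- The functions on the family over an open come from the open. -/
theorem baseFun_surjective (hD : DictProps G) (W : T.Opens) :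
    Function.Surjective (baseFun (c := c) (t := t) W) := by
  intro a
  refine ⟨T.presheaf.map (homOfLE (show W ≤ rigSection c t ε ⁻¹ᵁ (pullback.snd c t ⁻¹ᵁ W) from
    le_of_eq (by rw [← Scheme.Hom.comp_preimage, rigSection_snd]; rfl))).op
    ((rigSection c t ε).app _ a), ?_⟩
  set b : Γ(T, W) := T.presheaf.map _ ((rigSection c t ε).app _ a) with hb
  refine TopCat.Sheaf.eq_of_locally_eq' (pullback c t).sheaf
    (fun U : {U : T.Opens // IsAffineOpen U ∧ U ≤ W} => pullback.snd c t ⁻¹ᵁ U.1)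
    (pullback.snd c t ⁻¹ᵁ W) (fun U => homOfLE fun x hx => U.2.2 hx) ?_ _ _ fun U => ?_
  · intro x hx
    obtain ⟨V, hV, hxV, hVW⟩ :=
      exists_isAffineOpen_mem_and_subset (X := T) (U := W) (x := pullback.snd c t x) hx
    exact Opens.mem_iSup.mpr ⟨⟨V, hV, hVW⟩, hxV⟩
  obtain ⟨U, hU, hUW⟩ := U
  letI := algOf (R := Γ(T, U)) (hU.fromSpec ≫ t)
  let ψ : SchemeHomOver (str k Γ(T, U)) t := ⟨hU.fromSpec, (str_algOf (R := Γ(T, U)) _).symm⟩
  haveI : IsOpenImmersion ψ.1 := inferInstanceAs (IsOpenImmersion hU.fromSpec)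
  have hr : (baseChangeSnd c ψ).opensRange = pullback.snd c t ⁻¹ᵁ U := by
    rw [opensRange_baseChangeSnd]
    congr 1
    exact hU.opensRange_fromSpec
  have hle : (⊤ : (pullback c (str k Γ(T, U))).Opens) ≤
      baseChangeSnd c ψ ⁻¹ᵁ (pullback.snd c t ⁻¹ᵁ W) := fun x _ => by
    have h : baseChangeSnd c ψ x ∈ (baseChangeSnd c ψ).opensRange := ⟨x, rfl⟩
    rw [hr] at h
    exact hUW h
  have hW : (⊤ : (Spec (CommRingCat.of Γ(T, U))).Opens) ≤ ψ.1 ⁻¹ᵁ W := fun x _ => by
    have h : hU.fromSpec x ∈ hU.fromSpec.opensRange := ⟨x, rfl⟩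
    rw [hU.opensRange_fromSpec] at h
    exact hUW h
  obtain ⟨b', hb'⟩ := hD.exists_appTop_eq Γ(T, U) ((baseChangeSnd c ψ).appLE _ ⊤ hle a)
  have hb1 : b' = ψ.1.appLE W ⊤ hW b := by
    have h1 : (rigSection c (str k Γ(T, U)) ε).appLE ⊤ ⊤ le_top
        ((baseChangeSnd c ψ).appLE _ ⊤ hle a) = b' := by
      rw [← hb', ← appLE_top_top (pullback.snd c (str k Γ(T, U))) le_top]
      show ((pullback.snd c (str k Γ(T, U))).appLE ⊤ ⊤ le_top ≫
        (rigSection c (str k Γ(T, U)) ε).appLE ⊤ ⊤ le_top) b' = b'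
      erw [Scheme.Hom.appLE_comp_appLE]
      rw [appLE_of_eq_id rigSection_snd _ le_rfl]
      exact resRing_self le_rfl _
    rw [← h1, hb]
    show ((baseChangeSnd c ψ).appLE _ ⊤ hle ≫
      (rigSection c (str k Γ(T, U)) ε).appLE ⊤ ⊤ le_top) a =
      (((rigSection c t ε).app _ ≫ T.presheaf.map _) ≫ ψ.1.appLE W ⊤ hW) a
    erw [Scheme.Hom.appLE_comp_appLE, ← Scheme.Hom.appLE_eq_app, Scheme.Hom.appLE_map,
      Scheme.Hom.appLE_comp_appLE]
    simp only [rigSection_baseChangeSnd]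
  have hkey : (baseChangeSnd c ψ).appLE _ ⊤ hle (baseFun W b) =
      (baseChangeSnd c ψ).appLE _ ⊤ hle a := by
    rw [← hb', hb1, ← appLE_top_top (pullback.snd c (str k Γ(T, U))) le_top]
    show ((pullback.snd c t).app W ≫ (baseChangeSnd c ψ).appLE _ ⊤ hle) b =
      ((ψ.1.appLE W ⊤ hW) ≫ (pullback.snd c (str k Γ(T, U))).appLE ⊤ ⊤ le_top) b
    erw [← Scheme.Hom.appLE_eq_app, Scheme.Hom.appLE_comp_appLE, Scheme.Hom.appLE_comp_appLE]
    simp only [baseChangeSnd_snd]
  set g := baseChangeSnd c ψ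
  have hV : g ''ᵁ ⊤ = pullback.snd c t ⁻¹ᵁ U := by
    rw [Scheme.Hom.image_top_eq_opensRange, hr]
  have hV' : g ''ᵁ ⊤ ≤ pullback.snd c t ⁻¹ᵁ W := by
    rw [hV]
    exact fun x hx => hUW hx
  have h2 : (pullback c t).presheaf.map (homOfLE hV').op (baseFun W b) =
      (pullback c t).presheaf.map (homOfLE hV').op a := by
    apply (g.appIso ⊤).commRingCatIsoToRingEquiv.injective
    show ((pullback c t).presheaf.map (homOfLE hV').op ≫ (g.appIso ⊤).hom) (baseFun W b) =
      ((pullback c t).presheaf.map (homOfLE hV').op ≫ (g.appIso ⊤).hom) a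
    rw [Scheme.Hom.appIso_hom', Scheme.Hom.map_appLE]
    exact hkey
  have h3 := congrArg ((pullback c t).presheaf.map (homOfLE hV.ge).op) h2
  rw [resRing_resRing, resRing_resRing] at h3
  exact h3

end Fermat.Agent.RelPic

end
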