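import Fermat.Agent.RelPic.Functor.BaseFun

/-!
# Rigidified bundles on an open cover of the base

Rigidified bundles that are isomorphic on an open cover are isomorphic, and compatible rigidified
bundles on the members of an open cover glue, provided functions on the family come from the base.
-/

set_option autoImplicit false
set_option linter.style.haveILetI false

noncomputable section

universe u

open CategoryTheory CategoryTheory.Limits AlgebraicGeometry AlgebraicGeometry.RelPicard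
  NeronModelInfra TopologicalSpace Opposite

namespace Fermat.Agent.RelPic

variable {R : Type u} [CommRing R] {C : Scheme.{u}} {c : C ⟶ Spec (CommRingCat.of R)}
  {ε : SchemeHomOver (𝟙 (Spec (CommRingCat.of R))) c}
  {T T' : Scheme.{u}} {t : T ⟶ Spec (CommRingCat.of R)} {t' : T' ⟶ Spec (CommRingCat.of R)}

/-- Functions on the family over every open of the base come from that open. -/
def BaseSurj (c : C ⟶ Spec (CommRingCat.of R)) (t : T ⟶ Spec (CommRingCat.of R)) : Prop :=
  ∀ W : T.Opens, Function.Surjective (baseFun (c := c) (t := t) W)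

theorem DictProps.baseSurj {k : Type u} [Field k] {c : C ⟶ Spec (CommRingCat.of k)}
    {ε : SchemeHomOver (𝟙 (Spec (CommRingCat.of k))) c} {G : GeomModel c ε} (hD : DictProps G)
    (t : T ⟶ Spec (CommRingCat.of k)) : BaseSurj c t :=
  fun W => baseFun_surjective hD W

section Immersion

variable (ψ : SchemeHomOver t' t) [IsOpenImmersion ψ.1]

theorem nonempty_isoOn_of_baseChangeIso {N N' : (pullback c t).Modules}
    (e : (Scheme.Modules.pullback (baseChangeSnd c ψ)).obj N ≅
      (Scheme.Modules.pullback (baseChangeSnd c ψ)).obj N') :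
    Nonempty (IsoOn N N' (pullback.snd c t ⁻¹ᵁ ψ.1.opensRange)) := by
  obtain ⟨f⟩ := nonempty_isoOn_of_pullbackIso (baseChangeSnd c ψ) e
  exact ⟨f.restrict (opensRange_baseChangeSnd c ψ).ge⟩

theorem nonempty_baseChangeIso_of_isoOn {N N' : (pullback c t).Modules}
    (e : IsoOn N N' (pullback.snd c t ⁻¹ᵁ ψ.1.opensRange)) :
    Nonempty ((Scheme.Modules.pullback (baseChangeSnd c ψ)).obj N ≅
      (Scheme.Modules.pullback (baseChangeSnd c ψ)).obj N') :=
  nonempty_pullbackIso_of_isoOn (baseChangeSnd c ψ) (e.restrict (opensRange_baseChangeSnd c ψ).le)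

/-- A bundle that is rigidified on the immersed base is rigidified on its image. -/
theorem nonempty_isoOn_unit_of_baseChangeIso {N : (pullback c t).Modules}
    (M : RigidifiedLineBundle c ε t')
    (e : (Scheme.Modules.pullback (baseChangeSnd c ψ)).obj N ≅ M.L) :
    Nonempty (IsoOn ((Scheme.Modules.pullback (rigSection c t ε)).obj N) (unitMod T)
      ψ.1.opensRange) :=
  nonempty_isoOn_of_pullbackIso ψ.1
    ((Scheme.Modules.pullbackComp ψ.1 (rigSection c t ε)).app N ≪≫
      (Scheme.Modules.pullbackCongr (rigSection_baseChangeSnd c ε ψ).symm).app N ≪≫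
      ((Scheme.Modules.pullbackComp (rigSection c t' ε) (baseChangeSnd c ψ)).app N).symm ≪≫
      (Scheme.Modules.pullback (rigSection c t' ε)).mapIso e ≪≫ M.rigidified.some ≪≫
      (Scheme.Modules.pullbackUnitIso ψ.1).symm)

/-- A module that becomes invertible on the immersed base is locally trivial on its image. -/
theorem exists_isoOn_unit_of_baseChangeIso {N : (pullback c t).Modules}
    {L : (pullback c t').Modules} (hL : Scheme.Modules.IsInvertible L)
    (e : (Scheme.Modules.pullback (baseChangeSnd c ψ)).obj N ≅ L)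
    (y : ↥(pullback c t)) (hy : y ∈ pullback.snd c t ⁻¹ᵁ ψ.1.opensRange) :
    ∃ V, y ∈ V ∧ Nonempty (IsoOn N (unitMod _) V) := by
  rw [← opensRange_baseChangeSnd c ψ] at hy
  obtain ⟨x, rfl⟩ := hy
  obtain ⟨W, hW, ⟨f⟩⟩ := hL.exists_trivialization x
  refine ⟨(W.ι ≫ baseChangeSnd c ψ).opensRange, ⟨⟨x, hW⟩, rfl⟩, ?_⟩
  exact nonempty_isoOn_of_pullbackIso (W.ι ≫ baseChangeSnd c ψ)
    (((Scheme.Modules.pullbackComp W.ι (baseChangeSnd c ψ)).app N).symm ≪≫
      (Scheme.Modules.pullback W.ι).mapIso e ≪≫ f ≪≫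
      (Scheme.Modules.pullbackUnitIso (W.ι ≫ baseChangeSnd c ψ)).symm)

end Immersion

/-- Rigidified bundles isomorphic on an open cover of the base are isomorphic. -/
theorem nonempty_iso_of_isoOn_cover (hbase : BaseSurj c t) (M M' : RigidifiedLineBundle c ε t)
    {ι : Type*} (U : ι → T.Opens) (hU : ⊤ ≤ ⨆ i, U i)
    (h : ∀ i, Nonempty (IsoOn M.L M'.L (pullback.snd c t ⁻¹ᵁ U i))) : Nonempty (M.L ≅ M'.L) := by
  let r : Rig ε M.L ⊤ := Rig.ofIsoOn (IsoOn.ofIso M.rigidified.some ⊤)
  let r' : Rig ε M'.L ⊤ := Rig.ofIsoOn (IsoOn.ofIso M'.rigidified.some ⊤)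
  choose φ hφ using fun i =>
    (r.restrict (le_top : U i ≤ ⊤)).exists_normalised (r'.restrict le_top) (h i)
  refine ⟨(IsoOn.glue (fun i => pullback.snd c t ⁻¹ᵁ U i) (fun i => le_top) ?_ φ
    fun i j => ?_).toIso⟩
  · intro x _
    obtain ⟨i, hi⟩ := Opens.mem_iSup.mp (hU (trivial : pullback.snd c t x ∈ (⊤ : T.Opens)))
    exact Opens.mem_iSup.mpr ⟨i, hi⟩
  · exact ((hφ i).restrict (inf_le_left : U i ⊓ U j ≤ U i)).unique (hbase _)
      (fun y _ => isInvertible_iff.mp M.isInvertible y)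
      ((hφ j).restrict (inf_le_right : U i ⊓ U j ≤ U j))

/-- Rigidified bundles isomorphic after pullback to an open cover of the base are isomorphic. -/
theorem nonempty_iso_of_pullbackAlong_cover (hbase : BaseSurj c t)
    (M M' : RigidifiedLineBundle c ε t) {ι : Type*} {S : ι → Scheme.{u}}
    {s : ∀ i, S i ⟶ Spec (CommRingCat.of R)} (ψ : ∀ i, SchemeHomOver (s i) t)
    [∀ i, IsOpenImmersion (ψ i).1] (hcov : ⊤ ≤ ⨆ i, (ψ i).1.opensRange)
    (h : ∀ i, Nonempty ((M.pullbackAlong (ψ i)).L ≅ (M'.pullbackAlong (ψ i)).L)) :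
    Nonempty (M.L ≅ M'.L) :=
  nonempty_iso_of_isoOn_cover hbase M M' _ hcov fun i =>
    nonempty_isoOn_of_baseChangeIso (ψ i) (h i).some

section Glue

variable {ι : Type u} {S : ι → Scheme.{u}} {s : ∀ i, S i ⟶ Spec (CommRingCat.of R)}
  (ψ : ∀ i, SchemeHomOver (s i) t) [∀ i, IsOpenImmersion (ψ i).1]
  (M : ∀ i, RigidifiedLineBundle c ε (s i))

/-- A bundle on a member of the cover, pushed forward to the family. -/
def extendBundle (i : ι) : (pullback c t).Modules :=
  (Scheme.Modules.pushforward (baseChangeSnd c (ψ i))).obj (M i).L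

theorem nonempty_isoOn_extendBundle
    (hM : ∀ (i j : ι) ⦃T'' : Scheme.{u}⦄ ⦃t'' : T'' ⟶ Spec (CommRingCat.of R)⦄
      (a : SchemeHomOver t'' (s i)) (b : SchemeHomOver t'' (s j)),
      postComp (ψ i) a = postComp (ψ j) b →
        Nonempty (((M i).pullbackAlong a).L ≅ ((M j).pullbackAlong b).L))
    (i j : ι) :
    Nonempty (IsoOn (extendBundle ψ M i) (extendBundle ψ M j)
      (pullback.snd c t ⁻¹ᵁ ((ψ i).1.opensRange ⊓ (ψ j).1.opensRange))) := by
  let a : SchemeHomOver (pullback.fst (ψ i).1 (ψ j).1 ≫ s i) (s i) :=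
    ⟨pullback.fst (ψ i).1 (ψ j).1, rfl⟩
  let b : SchemeHomOver (pullback.fst (ψ i).1 (ψ j).1 ≫ s i) (s j) :=
    ⟨pullback.snd (ψ i).1 (ψ j).1, (congrArg (pullback.snd (ψ i).1 (ψ j).1 ≫ ·) (ψ j).2.symm).trans
      ((pullback.condition_assoc t).symm.trans
        (congrArg (pullback.fst (ψ i).1 (ψ j).1 ≫ ·) (ψ i).2))⟩
  have hab : postComp (ψ i) a = postComp (ψ j) b := Subtype.ext pullback.condition
  haveI : IsOpenImmersion (postComp (ψ i) a).1 :=
    inferInstanceAs (IsOpenImmersion (pullback.fst (ψ i).1 (ψ j).1 ≫ (ψ i).1))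
  have hr : (postComp (ψ i) a).1.opensRange = (ψ i).1.opensRange ⊓ (ψ j).1.opensRange :=
    Opens.ext (IsOpenImmersion.range_pullback_to_base_of_left (ψ i).1 (ψ j).1)
  obtain ⟨f⟩ := hM i j a b hab
  obtain ⟨g⟩ := nonempty_isoOn_of_baseChangeIso (N := extendBundle ψ M i)
    (N' := extendBundle ψ M j) (postComp (ψ i) a)
    ((Scheme.Modules.pullbackCongr (baseChangeSnd_comp c (ψ i) a).symm).app _ ≪≫
      ((Scheme.Modules.pullbackComp _ _).app _).symm ≪≫
      (Scheme.Modules.pullback (baseChangeSnd c a)).mapIso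
        (pullbackPushforwardIso (baseChangeSnd c (ψ i)) (M i).L) ≪≫ f ≪≫
      ((Scheme.Modules.pullback (baseChangeSnd c b)).mapIso
        (pullbackPushforwardIso (baseChangeSnd c (ψ j)) (M j).L)).symm ≪≫
      (Scheme.Modules.pullbackComp _ _).app _ ≪≫
      (Scheme.Modules.pullbackCongr ((baseChangeSnd_comp c (ψ j) b).trans
        (congrArg (baseChangeSnd c) hab.symm))).app _)
  exact ⟨g.restrict (preimage_le_of_le hr.ge)⟩

/-- Compatible rigidified bundles on the members of an open cover glue. -/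
theorem exists_glueBundle (hbase : BaseSurj c t) (hcov : ⊤ ≤ ⨆ i, (ψ i).1.opensRange)
    (hM : ∀ (i j : ι) ⦃T'' : Scheme.{u}⦄ ⦃t'' : T'' ⟶ Spec (CommRingCat.of R)⦄
      (a : SchemeHomOver t'' (s i)) (b : SchemeHomOver t'' (s j)),
      postComp (ψ i) a = postComp (ψ j) b →
        Nonempty (((M i).pullbackAlong a).L ≅ ((M j).pullbackAlong b).L)) :
    ∃ N : RigidifiedLineBundle c ε t, ∀ i, Nonempty ((N.pullbackAlong (ψ i)).L ≅ (M i).L) := by
  set U := fun i => (ψ i).1.opensRange with hU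
  let N := extendBundle ψ M
  have hN : ∀ i, (Scheme.Modules.pullback (baseChangeSnd c (ψ i))).obj (N i) ≅ (M i).L :=
    fun i => pullbackPushforwardIso (baseChangeSnd c (ψ i)) (M i).L
  let r : ∀ i, Rig ε (N i) (U i) := fun i =>
    Rig.ofIsoOn (nonempty_isoOn_unit_of_baseChangeIso (ψ i) (M i) (hN i)).some
  choose φ hφ using fun i j => ((r i).restrict (inf_le_left : U i ⊓ U j ≤ U i)).exists_normalised
    ((r j).restrict (inf_le_right : U i ⊓ U j ≤ U j)) (nonempty_isoOn_extendBundle ψ M hM i j)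
  let D : GlueData (pullback c t) :=
    { ι := ι
      U := fun i => pullback.snd c t ⁻¹ᵁ U i
      cover := fun x _ => by
        obtain ⟨i, hi⟩ := Opens.mem_iSup.mp (hcov (trivial : pullback.snd c t x ∈ (⊤ : T.Opens)))
        exact Opens.mem_iSup.mpr ⟨i, hi⟩
      N := N
      φ := φ
      cocycle := fun i j k V hi hj hk x => by
        have hijk : U i ⊓ U j ⊓ U k ≤ U i := inf_le_left.trans inf_le_left
        have h1 := (hφ i j).restrict (inf_le_left : U i ⊓ U j ⊓ U k ≤ U i ⊓ U j)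
        have h2 := (hφ j k).restrict (show U i ⊓ U j ⊓ U k ≤ U j ⊓ U k from
          inf_le_inf_right _ inf_le_right)
        have h3 := (hφ i k).restrict (show U i ⊓ U j ⊓ U k ≤ U i ⊓ U k from
          inf_le_inf_right _ inf_le_left)
        have h := Rig.Normalised.unique (hbase _)
          (fun y hy => exists_isoOn_unit_of_baseChangeIso (ψ i) (M i).isInvertible (hN i) y
            (preimage_le_of_le hijk hy)) (h1.trans h2) h3
        have h' := LinearMap.congr_fun
          (congrFun (congrFun (congrArg HomOn.app (congrArg IsoOn.hom h)) V)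
            (show V ≤ pullback.snd c t ⁻¹ᵁ (U i ⊓ U j ⊓ U k) from le_inf (le_inf hi hj) hk)) x
        exact h' }
  have hglue : ∀ i, Nonempty ((Scheme.Modules.pullback (baseChangeSnd c (ψ i))).obj D.glue ≅
      (M i).L) := fun i =>
    ⟨(nonempty_baseChangeIso_of_isoOn (ψ i) (D.glueIso i)).some ≪≫ hN i⟩
  have hinv : Scheme.Modules.IsInvertible D.glue := by
    rw [isInvertible_iff]
    intro y
    obtain ⟨i, hi⟩ := Opens.mem_iSup.mp (hcov (trivial : pullback.snd c t y ∈ (⊤ : T.Opens)))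
    exact exists_isoOn_unit_of_baseChangeIso (ψ i) (M i).isInvertible (hglue i).some y hi
  refine ⟨⟨D.glue, hinv, nonempty_iso_unit_of_rig U hcov
    (fun i => (nonempty_isoOn_unit_of_baseChangeIso (ψ i) (M i) (hglue i).some).some)
    (fun i => (r i).transport (D.glueIso i)) fun i j => ?_⟩, hglue⟩
  show ((D.glueIso i).hom.comp (r i).rho).restrict
      (preimage_le_of_le (inf_le_left : U i ⊓ U j ≤ U i)) =
    ((D.glueIso j).hom.comp (r j).rho).restrict
      (preimage_le_of_le (inf_le_right : U i ⊓ U j ≤ U j))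
  have hc := congrArg IsoOn.hom (D.glueIso_compat i j)
  have hn : (φ i j).hom.comp ((r j).restrict (inf_le_right : U i ⊓ U j ≤ U j)).rho =
    ((r i).restrict (inf_le_left : U i ⊓ U j ≤ U i)).rho := hφ i j
  refine HomOn.ext' fun V hV x => ?_
  have hc' := LinearMap.congr_fun (congrFun (congrFun (congrArg HomOn.app hc) V) hV) x
  have hn' := LinearMap.congr_fun (congrFun (congrFun (congrArg HomOn.app hn) V) hV)
    ((D.glueIso i).hom.app V (hV.trans (preimage_le_of_le (inf_le_left : U i ⊓ U j ≤ U i))) x)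
  exact hn'.symm.trans
    (congrArg ((r j).rho.app V (hV.trans (preimage_le_of_le (inf_le_right : U i ⊓ U j ≤ U j)))) hc')

end Glue

/-- Gluing for a cover with an arbitrary index type. -/
theorem exists_glueBundle_large {ι : Type*} {S : ι → Scheme.{u}}
    {s : ∀ i, S i ⟶ Spec (CommRingCat.of R)} (ψ : ∀ i, SchemeHomOver (s i) t)
    [∀ i, IsOpenImmersion (ψ i).1] (M : ∀ i, RigidifiedLineBundle c ε (s i))
    (hbase : ∀ {T' : Scheme.{u}} (t' : T' ⟶ Spec (CommRingCat.of R)), BaseSurj c t')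
    (hcov : ⊤ ≤ ⨆ i, (ψ i).1.opensRange)
    (hM : ∀ (i j : ι) ⦃T'' : Scheme.{u}⦄ ⦃t'' : T'' ⟶ Spec (CommRingCat.of R)⦄
      (a : SchemeHomOver t'' (s i)) (b : SchemeHomOver t'' (s j)),
      postComp (ψ i) a = postComp (ψ j) b →
        Nonempty (((M i).pullbackAlong a).L ≅ ((M j).pullbackAlong b).L)) :
    ∃ N : RigidifiedLineBundle c ε t, ∀ i, Nonempty ((N.pullbackAlong (ψ i)).L ≅ (M i).L) := by
  choose sel hsel using fun y : T => Opens.mem_iSup.mp (hcov (trivial : y ∈ (⊤ : T.Opens)))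
  obtain ⟨N, hN⟩ := exists_glueBundle (fun y : T => ψ (sel y)) (fun y => M (sel y)) (hbase t)
    (fun y _ => Opens.mem_iSup.mpr ⟨y, hsel y⟩) fun i j T'' t'' a b h => hM _ _ a b h
  refine ⟨N, fun i => ?_⟩
  let a : ∀ y : T, SchemeHomOver (pullback.fst (ψ i).1 (ψ (sel y)).1 ≫ s i) (s i) :=
    fun y => ⟨pullback.fst _ _, rfl⟩
  let b : ∀ y : T, SchemeHomOver (pullback.fst (ψ i).1 (ψ (sel y)).1 ≫ s i) (s (sel y)) :=
    fun y => ⟨pullback.snd _ _, (congrArg (pullback.snd (ψ i).1 (ψ (sel y)).1 ≫ ·)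
      (ψ (sel y)).2.symm).trans ((pullback.condition_assoc t).symm.trans
        (congrArg (pullback.fst (ψ i).1 (ψ (sel y)).1 ≫ ·) (ψ i).2))⟩
  haveI : ∀ y, IsOpenImmersion (a y).1 :=
    fun y => inferInstanceAs (IsOpenImmersion (pullback.fst (ψ i).1 (ψ (sel y)).1))
  refine nonempty_iso_of_pullbackAlong_cover (hbase (s i)) _ _ a (fun x _ => ?_) fun y => ?_
  · refine Opens.mem_iSup.mpr ⟨(ψ i).1 x, ?_⟩
    show x ∈ (pullback.fst (ψ i).1 (ψ (sel ((ψ i).1 x))).1).opensRange
    rw [Scheme.Hom.opensRange_pullbackFst]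
    exact hsel ((ψ i).1 x)
  · have hab : postComp (ψ i) (a y) = postComp (ψ (sel y)) (b y) := Subtype.ext pullback.condition
    have h1 : Nonempty (((N.pullbackAlong (ψ i)).pullbackAlong (a y)).L ≅
        ((N.pullbackAlong (ψ (sel y))).pullbackAlong (b y)).L) :=
      ⟨(Scheme.Modules.pullbackComp _ _).app N.L ≪≫
        (Scheme.Modules.pullbackCongr ((baseChangeSnd_comp c (ψ i) (a y)).trans
          ((congrArg (baseChangeSnd c) hab).trans (baseChangeSnd_comp c _ _).symm))).app N.L ≪≫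
        ((Scheme.Modules.pullbackComp _ _).app N.L).symm⟩
    exact ⟨h1.some ≪≫ (RigidifiedLineBundle.pullbackAlong_congr (b y) (hN y)).some ≪≫
      (hM i (sel y) (a y) (b y) hab).some.symm⟩

end Fermat.Agent.RelPic

end
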