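import Fermat.Agent.RelPic.Functor.Condition
import Fermat.Agent.RelPic.Functor.Descent

/-!
# The bundles in a chart are classified by the chart
-/

set_option autoImplicit false
set_option linter.style.haveILetI false

noncomputable section

universe u

open CategoryTheory CategoryTheory.Limits AlgebraicGeometry AlgebraicGeometry.RelPicard NeronModelInfra

namespace Fermat.Agent.RelPic

variable {k : Type u} [Field k] {C : Scheme.{u}} {c : C ⟶ Spec (CommRingCat.of k)}
  {ε : SchemeHomOver (𝟙 (Spec (CommRingCat.of k))) c} {G : GeomModel c ε}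
  {T T' : Scheme.{u}} {t : T ⟶ Spec (CommRingCat.of k)} {t' : T' ⟶ Spec (CommRingCat.of k)}

theorem top_le_iSup_opensRange (𝓤 : T.OpenCover) : ⊤ ≤ ⨆ j, (𝓤.f j).opensRange :=
  (Scheme.OpenCover.iSup_opensRange 𝓤).ge

theorem ChartAll.pullback {i : Idx G.model} {M : RigidifiedLineBundle c ε t}
    (ψ : SchemeHomOver t' t) (h : ChartAll G i M) : ChartAll G i (M.pullbackAlong ψ) :=
  fun K _ _ g => (inChartPt_pullback ψ g).mpr (h K (postComp ψ g))

theorem ChartAll.of_iso {i : Idx G.model} {M M' : RigidifiedLineBundle c ε t}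
    (e : Nonempty (M.L ≅ M'.L)) (h : ChartAll G i M) : ChartAll G i M' :=
  fun K _ _ g => InChartPt.of_iso e (h K g)

variable (hD : DictProps G) {i : Idx G.model} (d : i.ChartData G.e)

/-- The universal bundle of a chart. -/
def chartBundle : RigidifiedLineBundle c ε (str k d.S) :=
  (hD.exists_rigidified d.S d.U d.rigid).choose

theorem tripleOf_chartBundle : TripleOf G d.S (chartBundle hD d).L d.U :=
  (hD.exists_rigidified d.S d.U d.rigid).choose_spec

variable (hi : i.IsOpenCondition G.e)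
include hi

theorem chartAll_chartBundle : ChartAll G i (chartBundle hD d) :=
  chartAll_of_inChart hD hi (tripleOf_chartBundle hD d) d.inChart

theorem existsUnique_classify_affine {R : Type u} [CommRing R] [Algebra k R]
    (M : RigidifiedLineBundle c ε (str k R)) (h : ChartAll G i M) :
    ∃! g : SchemeHomOver (str k R) (str k d.S),
      Nonempty (((chartBundle hD d).pullbackAlong g).L ≅ M.L) := by
  obtain ⟨X, hX, hrig⟩ := hD.exists_tripleOf R M
  obtain ⟨φ, hφ, huniq⟩ := d.univ R X hrig (inChart_of_chartAll hD hi hX hrig h)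
  have key : ∀ ψ : d.S →ₐ[k] R, Nonempty (Triple.BC ψ d.U X) ↔
      Nonempty (((chartBundle hD d).pullbackAlong (specOver ψ)).L ≅ M.L) := fun ψ => by
    rw [← hD.bc_iff d.S R ψ _ d.U X (chartBundle hD d).isInvertible (tripleOf_chartBundle hD d)]
    exact ⟨fun hT => (hD.iso_iff R _ _ X X ((chartBundle hD d).pullbackAlong (specOver ψ)).isInvertible
      M.isInvertible hT hX).mpr ⟨⟨LinearEquiv.refl _ _, fun _ => Iff.rfl, fun _ => Iff.rfl⟩⟩, fun ⟨e⟩ => hX.of_iso e.symm⟩
  refine ⟨specOver φ, (key φ).mp hφ, fun g hg => ?_⟩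
  obtain ⟨ψ, rfl⟩ := specOver_surjective g
  exact congrArg specOver (huniq ψ ((key ψ).mpr hg))

theorem classify_unique_affine {T : Scheme.{u}} {t : T ⟶ Spec (CommRingCat.of k)}
    (M : RigidifiedLineBundle c ε t) (h : ChartAll G i M) {g g' : SchemeHomOver t (str k d.S)}
    (hg : Nonempty (((chartBundle hD d).pullbackAlong g).L ≅ M.L))
    (hg' : Nonempty (((chartBundle hD d).pullbackAlong g').L ≅ M.L))
    {R : Type u} [CommRing R] (f : Spec (CommRingCat.of R) ⟶ T) : f ≫ g.1 = f ≫ g'.1 := by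
  letI := algOf (f ≫ t)
  let ψ : SchemeHomOver (str k R) t := ⟨f, (str_algOf _).symm⟩
  have e1 : ∀ g : SchemeHomOver t (str k d.S),
      Nonempty (((chartBundle hD d).pullbackAlong g).L ≅ M.L) →
      Nonempty (((chartBundle hD d).pullbackAlong (postComp g ψ)).L ≅ (M.pullbackAlong ψ).L) :=
    fun g hg => ⟨(pullbackAlong_comp _ g ψ).some.symm ≪≫ (pullbackAlong_iso ψ hg).some⟩
  exact congrArg Subtype.val
    ((existsUnique_classify_affine hD d hi _ (h.pullback ψ)).unique (e1 g hg) (e1 g' hg'))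

theorem classify_unique (M : RigidifiedLineBundle c ε t) (h : ChartAll G i M)
    {g g' : SchemeHomOver t (str k d.S)}
    (hg : Nonempty (((chartBundle hD d).pullbackAlong g).L ≅ M.L))
    (hg' : Nonempty (((chartBundle hD d).pullbackAlong g').L ≅ M.L)) : g = g' :=
  Subtype.ext (T.affineOpenCover.openCover.hom_ext _ _ fun j =>
    classify_unique_affine hD d hi M h hg hg' (R := T.affineOpenCover.X j) (T.affineOpenCover.f j))

theorem exists_classify_spec (M : RigidifiedLineBundle c ε t) (h : ChartAll G i M) {R : Type u}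
    [CommRing R] {u : Spec (CommRingCat.of R) ⟶ Spec (CommRingCat.of k)} (ψ : SchemeHomOver u t) :
    ∃ g : SchemeHomOver u (str k d.S),
      Nonempty (((chartBundle hD d).pullbackAlong g).L ≅ (M.pullbackAlong ψ).L) := by
  have key : ∀ [Algebra k R] (u : Spec (CommRingCat.of R) ⟶ Spec (CommRingCat.of k))
      (_ : str k R = u) (ψ : SchemeHomOver u t), ∃ g : SchemeHomOver u (str k d.S),
      Nonempty (((chartBundle hD d).pullbackAlong g).L ≅ (M.pullbackAlong ψ).L) := by
    intro _ u hu ψ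
    subst hu
    exact (existsUnique_classify_affine hD d hi _ (h.pullback ψ)).exists
  exact @key (algOf u) u (str_algOf u) ψ

theorem existsUnique_classify_of_cover (M : RigidifiedLineBundle c ε t) (h : ChartAll G i M)
    (𝓤 : T.OpenCover) (hex : ∀ j, ∃ g : SchemeHomOver (𝓤.f j ≫ t) (str k d.S),
      Nonempty (((chartBundle hD d).pullbackAlong g).L ≅
        (M.pullbackAlong (⟨𝓤.f j, rfl⟩ : SchemeHomOver (𝓤.f j ≫ t) t)).L)) :
    ∃! g : SchemeHomOver t (str k d.S),
      Nonempty (((chartBundle hD d).pullbackAlong g).L ≅ M.L) := by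
  let ψ : ∀ j : 𝓤.I₀, SchemeHomOver (𝓤.f j ≫ t) t := fun j => ⟨𝓤.f j, rfl⟩
  choose g hg using hex
  have hcomp : ∀ j j', pullback.fst (𝓤.f j) (𝓤.f j') ≫ (g j).1 =
      pullback.snd (𝓤.f j) (𝓤.f j') ≫ (g j').1 := by
    intro j j'
    let a : SchemeHomOver (pullback.fst (𝓤.f j) (𝓤.f j') ≫ 𝓤.f j ≫ t)
        (𝓤.f j ≫ t) := ⟨pullback.fst _ _, rfl⟩
    let b : SchemeHomOver (pullback.fst (𝓤.f j) (𝓤.f j') ≫ 𝓤.f j ≫ t)
        (𝓤.f j' ≫ t) := ⟨pullback.snd _ _, (pullback.condition_assoc t).symm⟩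
    have hab : postComp (ψ j) a = postComp (ψ j') b := Subtype.ext pullback.condition
    exact congrArg Subtype.val (classify_unique hD d hi (M.pullbackAlong (postComp (ψ j) a))
      (h.pullback _) (g := postComp (g j) a) (g' := postComp (g j') b)
      ⟨(pullbackAlong_comp _ (g j) a).some.symm ≪≫ (pullbackAlong_iso a (hg j)).some ≪≫
        (pullbackAlong_comp M (ψ j) a).some⟩
      ⟨(pullbackAlong_comp _ (g j') b).some.symm ≪≫ (pullbackAlong_iso b (hg j')).some ≪≫
        (pullbackAlong_comp M (ψ j') b).some ≪≫ eqToIso (by rw [hab])⟩)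
  obtain ⟨Gm, hGm⟩ : ∃ Gm : T ⟶ Spec (CommRingCat.of d.S), ∀ j, 𝓤.f j ≫ Gm = (g j).1 :=
    ⟨Scheme.Cover.glueMorphisms 𝓤 (fun j => (g j).1) hcomp,
      fun j => Scheme.Cover.ι_glueMorphisms 𝓤 _ hcomp j⟩
  let G' : SchemeHomOver t (str k d.S) :=
    ⟨Gm, 𝓤.hom_ext _ _ fun j => by rw [← Category.assoc, hGm]; exact (g j).2⟩
  have hG' : Nonempty (((chartBundle hD d).pullbackAlong G').L ≅ M.L) := by
    haveI : ∀ j, IsOpenImmersion (ψ j).1 :=
      fun j => inferInstanceAs (IsOpenImmersion (𝓤.f j))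
    refine nonempty_iso_of_pullbackAlong_cover (hD.baseSurj t) _ M ψ
      (top_le_iSup_opensRange 𝓤) fun j => ?_
    have e : postComp G' (ψ j) = g j := Subtype.ext (hGm j)
    have h1 := hg j
    rw [← e] at h1
    exact ⟨(pullbackAlong_comp (chartBundle hD d) G' (ψ j)).some ≪≫ h1.some⟩
  exact ⟨G', hG', fun g' hg' => classify_unique hD d hi M h hg' hG'⟩

/-- The bundles in a chart are classified by the chart. -/
theorem existsUnique_classify (M : RigidifiedLineBundle c ε t) (h : ChartAll G i M) :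
    ∃! g : SchemeHomOver t (str k d.S),
      Nonempty (((chartBundle hD d).pullbackAlong g).L ≅ M.L) :=
  existsUnique_classify_of_cover hD d hi M h T.affineOpenCover.openCover fun j =>
    exists_classify_spec hD d hi M h (R := T.affineOpenCover.X j) _

end Fermat.Agent.RelPic

end
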