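import Fermat.Agent.RelPic.Functor.Points

/-!
# Degree zero bundles and the loci of the charts

For a rigidified bundle on an arbitrary base the conditions are imposed at all field points; the
locus of a chart is open, compatible with pullbacks, and the loci cover the base in degree zero.
-/

set_option autoImplicit false
set_option linter.style.haveILetI false

noncomputable section

universe u

open CategoryTheory CategoryTheory.Limits AlgebraicGeometry AlgebraicGeometry.RelPicard NeronModelInfra

namespace Fermat.Agent.RelPic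

variable {k : Type u} [Field k] {C : Scheme.{u}} {c : C ⟶ Spec (CommRingCat.of k)}
  {ε : SchemeHomOver (𝟙 (Spec (CommRingCat.of k))) c} {G : GeomModel c ε}

/-- The triple of sections only depends on the bundle up to isomorphism. -/
theorem TripleOf.of_iso {R : Type u} [CommRing R] [Algebra k R]
    {L L' : (pullback c (str k R)).Modules} (e : L ≅ L') {T : Triple G.model R}
    (h : TripleOf G R L T) : TripleOf G R L' T := by
  obtain ⟨h⟩ := h
  set E := IsoOn.ofIso e ⊤ with hE
  refine ⟨{ toEquiv := h.toEquiv.trans (E.appEquiv (G.j₀ R ''ᵁ ⊤) le_top).toAddEquiv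
            map_smul := fun a v => ?_
            mem_p := fun v => ?_
            mem_m := fun v => ?_ }⟩
  · show E.appEquiv _ le_top (h.toEquiv (a • v)) = _ • E.appEquiv _ le_top (h.toEquiv v)
    rw [h.map_smul, map_smul]
  · rw [h.mem_p]
    show (∃ s, _) ↔ ∃ s, _ = E.hom.app _ le_top (h.toEquiv v)
    constructor
    · rintro ⟨s, hs⟩
      exact ⟨E.hom.app _ le_top s, (E.hom.natural _ _ le_top (G.opens₀_le_p R) s).symm.trans
        (congrArg _ hs)⟩
    · rintro ⟨s, hs⟩
      refine ⟨E.inv.app _ le_top s, ?_⟩
      exact (E.inv.natural _ _ le_top (G.opens₀_le_p R) s).symm.trans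
        ((congrArg _ hs).trans (E.inv_hom_app _ le_top _))
  · rw [h.mem_m]
    show (∃ s, _) ↔ ∃ s, _ = E.hom.app _ le_top (h.toEquiv v)
    constructor
    · rintro ⟨s, hs⟩
      exact ⟨E.hom.app _ le_top s, (E.hom.natural _ _ le_top (G.opens₀_le_m R) s).symm.trans
        (congrArg _ hs)⟩
    · rintro ⟨s, hs⟩
      refine ⟨E.inv.app _ le_top s, ?_⟩
      exact (E.inv.natural _ _ le_top (G.opens₀_le_m R) s).symm.trans
        ((congrArg _ hs).trans (E.inv_hom_app _ le_top _))

variable {T : Scheme.{u}} {t : T ⟶ Spec (CommRingCat.of k)}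
  {T' : Scheme.{u}} {t' : T' ⟶ Spec (CommRingCat.of k)}

/-- Degree zero on all fibres. -/
def FibDegZero (G : GeomModel c ε) (M : RigidifiedLineBundle c ε t) : Prop :=
  ∀ (K : Type u) [Field K] [Algebra k K] (g : SchemeHomOver (str k K) t) (X : Triple G.model K),
    TripleOf G K (M.pullbackAlong g).L X → X.deg = 0

/-- The chart condition at a field point. -/
def InChartPt (G : GeomModel c ε) (i : Idx G.model) (M : RigidifiedLineBundle c ε t) {K : Type u}
    [Field K] [Algebra k K] (g : SchemeHomOver (str k K) t) : Prop :=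
  ∀ X : Triple G.model K, TripleOf G K (M.pullbackAlong g).L X → i.InChart X G.e

/-- The chart condition at all field points. -/
def ChartAll (G : GeomModel c ε) (i : Idx G.model) (M : RigidifiedLineBundle c ε t) : Prop :=
  ∀ (K : Type u) [Field K] [Algebra k K] (g : SchemeHomOver (str k K) t), InChartPt G i M g

theorem InChartPt.of_iso {i : Idx G.model} {M M' : RigidifiedLineBundle c ε t} {K : Type u}
    [Field K] [Algebra k K] {g : SchemeHomOver (str k K) t} (h : Nonempty (M.L ≅ M'.L))
    (hM : InChartPt G i M g) : InChartPt G i M' g := fun X hX =>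
  hM X (hX.of_iso (pullbackAlong_iso g h).some.symm)

theorem FibDegZero.of_iso {M M' : RigidifiedLineBundle c ε t} (h : Nonempty (M.L ≅ M'.L))
    (hM : FibDegZero G M) : FibDegZero G M' := fun K _ _ g X hX =>
  hM K g X (hX.of_iso (pullbackAlong_iso g h).some.symm)

theorem FibDegZero.pullback {M : RigidifiedLineBundle c ε t} (ψ : SchemeHomOver t' t)
    (hM : FibDegZero G M) : FibDegZero G (M.pullbackAlong ψ) := fun K _ _ g X hX =>
  hM K (postComp ψ g) X (hX.of_iso (pullbackAlong_comp M ψ g).some)

theorem inChartPt_pullback {i : Idx G.model} {M : RigidifiedLineBundle c ε t}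
    (ψ : SchemeHomOver t' t) {K : Type u} [Field K] [Algebra k K]
    (g : SchemeHomOver (str k K) t') :
    InChartPt G i (M.pullbackAlong ψ) g ↔ InChartPt G i M (postComp ψ g) :=
  ⟨fun h X hX => h X (hX.of_iso (pullbackAlong_comp M ψ g).some.symm),
    fun h X hX => h X (hX.of_iso (pullbackAlong_comp M ψ g).some)⟩

section Props

variable (hD : DictProps G)
include hD

/-- Two triples of the same bundle are related by a base change along the identity. -/
theorem bc_id_of_tripleOf {R : Type u} [CommRing R] [Algebra k R]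
    (M : RigidifiedLineBundle c ε (str k R)) {X X' : Triple G.model R}
    (h : TripleOf G R M.L X) (h' : TripleOf G R M.L X') :
    Nonempty (Triple.BC (AlgHom.id k R) X X') :=
  (hD.bc_iff R R (AlgHom.id k R) M.L X X' M.isInvertible h).mp
    (h'.of_iso (pullbackAlong_id M (specOver (AlgHom.id k R))
      (congrArg Subtype.val specOver_id)).some.symm)

/-- Base change of the triples along a morphism of `k`-algebras. -/
theorem bc_of_tripleOf {R R' : Type u} [CommRing R] [Algebra k R] [CommRing R'] [Algebra k R']
    {M : RigidifiedLineBundle c ε t} {g : SchemeHomOver (str k R) t} (φ : R →ₐ[k] R')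
    {X : Triple G.model R} {X' : Triple G.model R'}
    (h : TripleOf G R (M.pullbackAlong g).L X)
    (h' : TripleOf G R' (M.pullbackAlong (postComp g (specOver φ))).L X') :
    Nonempty (Triple.BC φ X X') :=
  (hD.bc_iff R R' φ _ X X' (M.pullbackAlong g).isInvertible h).mp
    (h'.of_iso (pullbackAlong_comp M g (specOver φ)).some.symm)

variable {i : Idx G.model}

variable (hi : i.IsOpenCondition G.e)
include hi

theorem inChartPt_iff {M : RigidifiedLineBundle c ε t} {K : Type u} [Field K] [Algebra k K]
    {g : SchemeHomOver (str k K) t} {X : Triple G.model K}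
    (hX : TripleOf G K (M.pullbackAlong g).L X) :
    InChartPt G i M g ↔ i.InChart X G.e :=
  ⟨fun h => h X hX, fun h X' hX' =>
    hi.bc K K (AlgHom.id k K) X X' (bc_id_of_tripleOf hD _ hX hX') h⟩

/-- The condition does not depend on the field of definition of the point. -/
theorem inChartPt_comp (M : RigidifiedLineBundle c ε t) {K K' : Type u} [Field K] [Algebra k K]
    [Field K'] [Algebra k K'] (φ : K →ₐ[k] K') (g : SchemeHomOver (str k K) t) :
    InChartPt G i M (postComp g (specOver φ)) ↔ InChartPt G i M g := by
  obtain ⟨X, hX, -⟩ := hD.exists_tripleOf K (M.pullbackAlong g)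
  obtain ⟨X', hX', -⟩ := hD.exists_tripleOf K' (M.pullbackAlong (postComp g (specOver φ)))
  rw [inChartPt_iff hD hi hX, inChartPt_iff hD hi hX']
  exact ⟨hi.of_field K K' φ X X' (bc_of_tripleOf hD φ hX hX'),
    hi.bc K K' φ X X' (bc_of_tripleOf hD φ hX hX')⟩

/-- Points with comparable fields lie in the chart together. -/
theorem inChartPt_iff_of_fac (M : RigidifiedLineBundle c ε t) {K L : Type u} [Field K]
    [Algebra k K] [Field L] [Algebra k L] (g : SchemeHomOver (str k K) t)
    (gx : SchemeHomOver (str k L) t) (f : CommRingCat.of L ⟶ CommRingCat.of K)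
    (hf : Spec.map f ≫ gx.1 = g.1) : InChartPt G i M g ↔ InChartPt G i M gx := by
  obtain ⟨φ, hφ⟩ := specOver_surjective (k := k) (R := L) (R' := K)
    ⟨Spec.map f, by rw [← gx.2, ← Category.assoc, hf, g.2]⟩
  have e : g = postComp gx (specOver φ) := Subtype.ext (by
    rw [hφ]; exact hf.symm)
  rw [e, inChartPt_comp hD hi]

omit hD hi in
/-- The residue field point at `x`, with its structure of `k`-algebra. -/
def resPt (t : T ⟶ Spec (CommRingCat.of k)) (x : T) :
    letI := algOf (R := T.residueField x) (T.fromSpecResidueField x ≫ t)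
    SchemeHomOver (str k (T.residueField x)) t :=
  letI := algOf (R := T.residueField x) (T.fromSpecResidueField x ≫ t)
  ⟨T.fromSpecResidueField x, (str_algOf (R := T.residueField x) _).symm⟩

omit hD hi in
/-- The points at which a bundle lies in the chart. -/
def chartSet (G : GeomModel c ε) (i : Idx G.model) (M : RigidifiedLineBundle c ε t) : Set T :=
  {x | letI := algOf (R := T.residueField x) (T.fromSpecResidueField x ≫ t)
    InChartPt G i M (resPt t x)}

/-- A field point lies in the chart iff its image does. -/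
theorem inChartPt_iff_mem (M : RigidifiedLineBundle c ε t) {K : Type u} [Field K] [Algebra k K]
    (g : SchemeHomOver (str k K) t) :
    InChartPt G i M g ↔ g.1 (IsLocalRing.closedPoint K) ∈ chartSet G i M := by
  set p := Scheme.SpecToEquivOfField K T g.1 with hp
  have hg : Spec.map p.2 ≫ T.fromSpecResidueField p.1 = g.1 :=
    (Scheme.SpecToEquivOfField K T).symm_apply_apply g.1
  show _ ↔ p.1 ∈ chartSet G i M
  letI := algOf (R := T.residueField p.1) (T.fromSpecResidueField p.1 ≫ t)
  exact inChartPt_iff_of_fac hD hi M g (resPt t p.1) p.2 hg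

theorem chartSet_pullback (M : RigidifiedLineBundle c ε t) (ψ : SchemeHomOver t' t) :
    chartSet G i (M.pullbackAlong ψ) = ψ.1.base ⁻¹' chartSet G i M := by
  ext x
  letI := algOf (R := T'.residueField x) (T'.fromSpecResidueField x ≫ t')
  show InChartPt G i (M.pullbackAlong ψ) (resPt t' x) ↔ ψ.1 x ∈ chartSet G i M
  rw [inChartPt_pullback, inChartPt_iff_mem hD hi]
  exact iff_of_eq (congrArg (· ∈ chartSet G i M) (congrArg ψ.1
    (T'.fromSpecResidueField_apply x (IsLocalRing.closedPoint (T'.residueField x)))))

theorem chartAll_iff (M : RigidifiedLineBundle c ε t) :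
    ChartAll G i M ↔ chartSet G i M = Set.univ :=
  ⟨fun h => Set.eq_univ_of_forall fun x =>
    letI := algOf (R := T.residueField x) (T.fromSpecResidueField x ≫ t)
    h (T.residueField x) (resPt t x),
   fun h _ _ _ g => (inChartPt_iff_mem hD hi M g).mpr (h ▸ Set.mem_univ _)⟩

/-- On an affine base the chart set is the locus of the triple. -/
theorem chartSet_eq_locus {R : Type u} [CommRing R] [Algebra k R]
    (M : RigidifiedLineBundle c ε (str k R)) {X : Triple G.model R} (hX : TripleOf G R M.L X) :
    chartSet G i M = i.locus X G.e := by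
  ext (q : PrimeSpectrum R)
  set φ := IsScalarTower.toAlgHom k R q.asIdeal.ResidueField
  have hq : (specOver φ).1 (IsLocalRing.closedPoint q.asIdeal.ResidueField) = q := by
    apply PrimeSpectrum.ext
    show Ideal.comap (algebraMap R q.asIdeal.ResidueField)
      (IsLocalRing.maximalIdeal q.asIdeal.ResidueField) = q.asIdeal
    rw [IsLocalRing.maximalIdeal_eq_bot, ← RingHom.ker_eq_comap_bot]
    exact q.asIdeal.ker_algebraMap_residueField
  rw [← hq, ← inChartPt_iff_mem hD hi, hq]
  refine forall_congr' fun X' => ?_
  rw [RigidifiedLineBundle.pullbackAlong,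
    hD.bc_iff R _ φ M.L X X' M.isInvertible hX]

/-- The chart set is open. -/
theorem isOpen_chartSet (M : RigidifiedLineBundle c ε t) : IsOpen (chartSet G i M) := by
  rw [isOpen_iff_forall_mem_open]
  intro x hx
  obtain ⟨V, hV, hxV, -⟩ :=
    exists_isAffineOpen_mem_and_subset (X := T) (x := x) (U := ⊤) trivial
  letI := algOf (R := Γ(T, V)) (hV.fromSpec ≫ t)
  let ψ : SchemeHomOver (str k Γ(T, V)) t := ⟨hV.fromSpec, (str_algOf (R := Γ(T, V)) _).symm⟩
  obtain ⟨X, hX, -⟩ := hD.exists_tripleOf Γ(T, V) (M.pullbackAlong ψ)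
  have hopen : IsOpen (chartSet G i (M.pullbackAlong ψ)) := by
    rw [chartSet_eq_locus hD hi _ hX]
    exact hi.isOpen_locus _ X
  rw [chartSet_pullback hD hi] at hopen
  refine ⟨hV.fromSpec '' (hV.fromSpec.base ⁻¹' chartSet G i M), Set.image_preimage_subset _ _,
    hV.fromSpec.isOpenEmbedding.isOpenMap _ hopen, ?_⟩
  have hx' : x ∈ Set.range hV.fromSpec := by rw [hV.range_fromSpec]; exact hxV
  obtain ⟨y, rfl⟩ := hx'
  exact ⟨y, hx, rfl⟩

/-- The open where a bundle lies in the chart. -/
def chartOpen (M : RigidifiedLineBundle c ε t) : T.Opens :=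
  ⟨chartSet G i M, isOpen_chartSet hD hi M⟩

/-- On an affine base the condition is the chart condition of the triple. -/
theorem inChart_of_chartAll {R : Type u} [CommRing R] [Algebra k R]
    {M : RigidifiedLineBundle c ε (str k R)} {X : Triple G.model R} (hX : TripleOf G R M.L X)
    (hrig : X.IsRigid G.e) (h : ChartAll G i M) : i.InChart X G.e :=
  hi.of_locus R X hrig (by rw [← chartSet_eq_locus hD hi M hX]; exact (chartAll_iff hD hi M).mp h)

theorem chartAll_of_inChart {R : Type u} [CommRing R] [Algebra k R]
    {M : RigidifiedLineBundle c ε (str k R)} {X : Triple G.model R} (hX : TripleOf G R M.L X)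
    (h : i.InChart X G.e) : ChartAll G i M := by
  intro K _ _ g X' hX'
  obtain ⟨φ, rfl⟩ := specOver_surjective g
  exact hi.bc R K φ X X'
    ((hD.bc_iff R K φ M.L X X' M.isInvertible hX).mp hX') h

/-- The charts consist of bundles of degree zero. -/
theorem fibDegZero_of_chartAll {M : RigidifiedLineBundle c ε t} (h : ChartAll G i M) :
    FibDegZero G M := fun K _ _ g X hX =>
  hi.isDegZero K X (h K g X hX) K (AlgHom.id k K) X (bc_id_of_tripleOf hD _ hX hX)

omit hi in
/-- In degree zero the charts cover. -/
theorem exists_mem_chartSet (hcov : G.model.HasCoverage G.e)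
    (hopen : ∀ i : Idx G.model, i.IsOpenCondition G.e) (M : RigidifiedLineBundle c ε t)
    (hM : FibDegZero G M) (x : T) : ∃ i : Idx G.model, x ∈ chartSet G i M := by
  letI := algOf (R := T.residueField x) (T.fromSpecResidueField x ≫ t)
  obtain ⟨X, hX, -⟩ := hD.exists_tripleOf (T.residueField x) (M.pullbackAlong (resPt t x))
  obtain ⟨i, hi⟩ := hcov _ X (hM _ (resPt t x) X hX)
  exact ⟨i, (inChartPt_iff hD (hopen i) hX).mpr hi⟩

end Props

end Fermat.Agent.RelPic

end
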