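import Fermat.Agent.RelPic.Modules.Affine

/-!
# Scalars, and isomorphisms on the image of an open immersion
-/

set_option autoImplicit false

noncomputable section

universe u

open CategoryTheory CategoryTheory.Limits AlgebraicGeometry TopologicalSpace Opposite

namespace Fermat.Agent.RelPic

variable {X X' : Scheme.{u}}

section Immersion

variable (j : X' ⟶ X) [IsOpenImmersion j] {M N : X.Modules}

/-- The pullback to the image is the pullback along the immersion. -/
def pullbackOpensRangeIso (M : X.Modules) :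
    (Scheme.Modules.pullback j.opensRange.ι).obj M ≅
      (Scheme.Modules.pullback j.isoOpensRange.inv).obj ((Scheme.Modules.pullback j).obj M) :=
  (Scheme.Modules.pullbackCongr j.isoOpensRange_inv_comp.symm).app M ≪≫
    ((Scheme.Modules.pullbackComp _ _).app M).symm

theorem nonempty_isoOn_of_pullbackIso
    (e : (Scheme.Modules.pullback j).obj M ≅ (Scheme.Modules.pullback j).obj N) :
    Nonempty (IsoOn M N j.opensRange) :=
  ⟨IsoOn.equivPullback.symm (pullbackOpensRangeIso j M ≪≫
    (Scheme.Modules.pullback j.isoOpensRange.inv).mapIso e ≪≫ (pullbackOpensRangeIso j N).symm)⟩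

theorem nonempty_pullbackIso_of_isoOn (e : IsoOn M N j.opensRange) :
    Nonempty ((Scheme.Modules.pullback j).obj M ≅ (Scheme.Modules.pullback j).obj N) :=
  ⟨(Scheme.Modules.pullbackCongr j.isoOpensRange_hom_ι.symm).app M ≪≫
    ((Scheme.Modules.pullbackComp _ _).app M).symm ≪≫
    (Scheme.Modules.pullback j.isoOpensRange.hom).mapIso (IsoOn.equivPullback e) ≪≫
    (Scheme.Modules.pullbackComp _ _).app N ≪≫
    (Scheme.Modules.pullbackCongr j.isoOpensRange_hom_ι).app N⟩

/-- A pushforward along an open immersion pulls back to the module. -/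
def pullbackPushforwardIso (M : X'.Modules) :
    (Scheme.Modules.pullback j).obj ((Scheme.Modules.pushforward j).obj M) ≅ M :=
  ((Scheme.Modules.restrictFunctorIsoPullback j).app _).symm ≪≫
    (Scheme.Modules.restrictFunctorAdjCounitIso j).app M

end Immersion

section Smul

variable {M N : X.Modules} {U U' : X.Opens}

/-- Multiplication by a function on an open. -/
def smulOn (M : X.Modules) (r : Γ(X, U)) : HomOn M M U where
  app V hV :=
    { toFun := fun x => X.presheaf.map (homOfLE hV).op r • x
      map_add' := fun x y => smul_add _ x y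
      map_smul' := fun a x => smul_comm _ a x }
  natural V W hV h x := by
    show X.presheaf.map (homOfLE (h.trans hV)).op r • resSec M h x =
      resSec M h (X.presheaf.map (homOfLE hV).op r • x)
    rw [resSec_smul, resRing_resRing]

@[simp] theorem smulOn_app (r : Γ(X, U)) (V : X.Opens) (hV : V ≤ U) (x : Γ(M, V)) :
    (smulOn M r).app V hV x = X.presheaf.map (homOfLE hV).op r • x := rfl

theorem smulOn_comp (r : Γ(X, U)) (φ : HomOn M N U) :
    (smulOn M r).comp φ = φ.comp (smulOn N r) :=
  HomOn.ext' fun V hV x => (φ.app V hV).map_smul _ x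

theorem smulOn_mul (r s : Γ(X, U)) : smulOn M (r * s) = (smulOn M s).comp (smulOn M r) :=
  HomOn.ext' fun V hV x => by
    simp only [HomOn.comp_app, smulOn_app, map_mul, mul_smul]

theorem smulOn_one : smulOn M (1 : Γ(X, U)) = HomOn.id M U :=
  HomOn.ext' fun V hV x => by simp only [smulOn_app, HomOn.id_app, map_one, one_smul]

/-- Multiplication by a unit. -/
def smulIso (M : X.Modules) (r : Γ(X, U)ˣ) : IsoOn M M U where
  hom := smulOn M (r : Γ(X, U))
  inv := smulOn M ((r⁻¹ : Γ(X, U)ˣ) : Γ(X, U))
  hom_inv := by rw [← smulOn_mul, Units.inv_mul, smulOn_one]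
  inv_hom := by rw [← smulOn_mul, Units.mul_inv, smulOn_one]

/-- Restrictions compose. -/
theorem HomOn.restrict_comp {P : X.Modules} (φ : HomOn M N U) (ψ : HomOn N P U) (h : U' ≤ U) :
    (φ.comp ψ).restrict h = (φ.restrict h).comp (ψ.restrict h) := rfl

theorem HomOn.comp_assoc {P Q : X.Modules} (φ : HomOn M N U) (ψ : HomOn N P U)
    (χ : HomOn P Q U) : (φ.comp ψ).comp χ = φ.comp (ψ.comp χ) := rfl

/-- A function as a section of the structure sheaf. -/
def secUnit {V : X.Opens} (a : Γ(X, V)) : Γ(unitMod X, V) := a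

/-- A section of the structure sheaf as a function. -/
def ofUnit {V : X.Opens} (a : Γ(unitMod X, V)) : Γ(X, V) := a

theorem ofUnit_smul {V : X.Opens} (r : Γ(X, V)) (a : Γ(unitMod X, V)) :
    ofUnit (r • a) = r * ofUnit a := rfl

theorem ofUnit_resSec {V W : X.Opens} (h : W ≤ V) (a : Γ(unitMod X, V)) :
    ofUnit (resSec (unitMod X) h a) = X.presheaf.map (homOfLE h).op (ofUnit a) := rfl

theorem resSec_secUnit_one {V W : X.Opens} (h : W ≤ V) :
    resSec (unitMod X) h (secUnit (1 : Γ(X, V))) = secUnit (1 : Γ(X, W)) :=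
  map_one (X.presheaf.map (homOfLE h).op).hom

theorem eq_smul_one {V : X.Opens} (a : Γ(unitMod X, V)) :
    a = ofUnit a • secUnit (1 : Γ(X, V)) := (mul_one (ofUnit a)).symm

/-- An endomorphism of the structure sheaf on an open is multiplication by its value at `1`. -/
theorem homOn_unit_eq (a : HomOn (unitMod X) (unitMod X) U) (V : X.Opens) (hV : V ≤ U)
    (x : Γ(unitMod X, V)) :
    a.app V hV x =
      X.presheaf.map (homOfLE hV).op (ofUnit (a.app U le_rfl (secUnit 1))) • x := by
  conv_lhs => rw [eq_smul_one x, map_smul, ← resSec_secUnit_one hV, a.natural U V le_rfl hV]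
  exact mul_comm (ofUnit x) _

/-- An endomorphism of an invertible module on an open is multiplication by a function. -/
theorem exists_eq_smulOn (hM : ∀ x ∈ U, ∃ W : X.Opens, x ∈ W ∧
      Nonempty (IsoOn M (unitMod X) W))
    (a : HomOn M M U) : ∃ r : Γ(X, U), a = smulOn M r := by
  classical
  choose W hW hW' using fun x : U => hM x.1 x.2
  let e := fun x => (hW' x).some
  let Z : U → X.Opens := fun x => U ⊓ W x
  have hZ : ∀ x, Z x ≤ U := fun x => inf_le_left
  have hcov : U ≤ ⨆ x, Z x := fun y hy =>
    Opens.mem_iSup.mpr ⟨⟨y, hy⟩, hy, hW ⟨y, hy⟩⟩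
  let f : ∀ x, Γ(X, Z x) := fun x =>
    ofUnit (((((e x).symm.hom.restrict inf_le_right).comp (a.restrict (hZ x))).comp
      ((e x).hom.restrict inf_le_right)).app (Z x) le_rfl (secUnit 1))
  have hf : ∀ x (V : X.Opens) (hV : V ≤ Z x) (y : Γ(M, V)),
      a.app V (hV.trans (hZ x)) y = X.presheaf.map (homOfLE hV).op (f x) • y := by
    intro x V hV y
    apply ((e x).appEquiv V (hV.trans inf_le_right)).injective
    rw [map_smul]
    have h := homOn_unit_eq ((((e x).symm.hom.restrict (inf_le_right : Z x ≤ W x)).comp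
      (a.restrict (hZ x))).comp ((e x).hom.restrict inf_le_right)) V hV
      ((e x).hom.app V (hV.trans inf_le_right) y)
    change (e x).hom.app V _ (a.app V _ ((e x).inv.app V _ ((e x).hom.app V _ y))) = _ at h
    rw [(e x).inv_hom_app] at h
    exact h
  have hcompat : ∀ x x', X.presheaf.map (homOfLE (inf_le_left : Z x ⊓ Z x' ≤ Z x)).op (f x) =
      X.presheaf.map (homOfLE (inf_le_right : Z x ⊓ Z x' ≤ Z x')).op (f x') := by
    intro x x'
    set V := Z x ⊓ Z x'
    have hVW : V ≤ W x := inf_le_left.trans inf_le_right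
    set y := (e x).inv.app V hVW (secUnit 1)
    have h := (hf x V inf_le_left y).symm.trans (hf x' V inf_le_right y)
    have h2 := congrArg ((e x).appEquiv V hVW) h
    rw [map_smul, map_smul, show (e x).appEquiv V hVW y = secUnit 1 from
      (e x).hom_inv_app V hVW _] at h2
    have h3 := congrArg ofUnit h2
    rw [ofUnit_smul, ofUnit_smul] at h3
    exact (mul_one _).symm.trans (h3.trans (mul_one _))
  obtain ⟨r, hr⟩ : ∃ r : Γ(X, U), ∀ x, X.presheaf.map (homOfLE (hZ x)).op r = f x :=
    (TopCat.Sheaf.existsUnique_gluing' X.sheaf Z U (fun x => homOfLE (hZ x)) hcov f hcompat).exists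
  refine ⟨r, HomOn.ext_of_cover Z hZ hcov fun x => HomOn.ext' fun V hV y => ?_⟩
  simp only [HomOn.restrict_app, smulOn_app]
  rw [hf x V hV y, ← resRing_resRing (hZ x) hV]
  exact congrArg (fun s => X.presheaf.map (homOfLE hV).op s • y) (hr x).symm

end Smul

end Fermat.Agent.RelPic

end
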