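import Fermat.Agent.RelPic.Functor.Chart
import Fermat.Agent.RelPic.Modules.Small

/-!
# The sheaf of rigidified bundles of degree zero
-/

set_option autoImplicit false
set_option linter.style.haveILetI false

noncomputable section

universe u

open CategoryTheory CategoryTheory.Limits AlgebraicGeometry AlgebraicGeometry.RelPicard NeronModelInfra Opposite

namespace Fermat.Agent.RelPic

variable {k : Type u} [Field k] {C : Scheme.{u}} {c : C ⟶ Spec (CommRingCat.of k)}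
  {ε : SchemeHomOver (𝟙 (Spec (CommRingCat.of k))) c} (G : GeomModel c ε)
  {T T' : Scheme.{u}} {t : T ⟶ Spec (CommRingCat.of k)} {t' : T' ⟶ Spec (CommRingCat.of k)}

/-- The classes of bundles of degree zero on a scheme, over all its structure maps. -/
abbrev DegZeroTotal (T : Scheme.{u}) : Type (u + 1) :=
  Σ t : T ⟶ Spec (CommRingCat.of k),
    {q : RigidifiedLineBundle.Classes c ε t // ∃ M : RigidifiedLineBundle c ε t,
      Quotient.mk _ M = q ∧ FibDegZero G M}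

instance small_degZeroFibre (t : T ⟶ Spec (CommRingCat.of k)) :
    Small.{u} {q : RigidifiedLineBundle.Classes c ε t // ∃ M : RigidifiedLineBundle c ε t,
      Quotient.mk _ M = q ∧ FibDegZero G M} :=
  @small_of_injective _ _ (small_classes.{u} c ε t) Subtype.val Subtype.val_injective

instance small_degZeroTotal (T : Scheme.{u}) : Small.{u} (DegZeroTotal G T) := small_sigma _

/-- A small model of the classes of bundles of degree zero. -/
abbrev DegZeroPts (T : Scheme.{u}) : Type u := Shrink.{u} (DegZeroTotal G T)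

variable {G}

/-- The point given by a bundle of degree zero. -/
def mkPt (t : T ⟶ Spec (CommRingCat.of k)) (M : RigidifiedLineBundle c ε t) (h : FibDegZero G M) :
    DegZeroPts G T :=
  equivShrink _ ⟨t, Quotient.mk _ M, M, rfl, h⟩

/-- The structure map of a point. -/
def ptBase (x : DegZeroPts G T) : T ⟶ Spec (CommRingCat.of k) :=
  ((equivShrink (DegZeroTotal G T)).symm x).1

theorem ptBase_mkPt (M : RigidifiedLineBundle c ε t) (h : FibDegZero G M) :
    ptBase (mkPt t M h) = t := by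
  rw [ptBase, mkPt, Equiv.symm_apply_apply]

theorem exists_mkPt (x : DegZeroPts G T) : ∃ t M h, x = mkPt (G := G) t M h := by
  obtain ⟨⟨t, q, M, rfl, h⟩, rfl⟩ := (equivShrink (DegZeroTotal G T)).surjective x
  exact ⟨t, M, h, rfl⟩

theorem mkPt_eq_iff {M M' : RigidifiedLineBundle c ε t} {h : FibDegZero G M}
    {h' : FibDegZero G M'} : mkPt t M h = mkPt t M' h' ↔ Nonempty (M.L ≅ M'.L) := by
  refine ⟨fun e => ?_, fun e => ?_⟩
  · exact Quotient.exact (congrArg Subtype.val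
      (eq_of_heq (Sigma.mk.inj ((equivShrink _).injective e)).2))
  · exact congrArg (equivShrink _) (congrArg (Sigma.mk t) (Subtype.ext (Quotient.sound e)))

/-- Pullback of points. -/
def ptMap (f : T' ⟶ T) (x : DegZeroPts G T) : DegZeroPts G T' :=
  equivShrink _
    ⟨f ≫ ((equivShrink (DegZeroTotal G T)).symm x).1,
      RigidifiedLineBundle.classesMap ⟨f, rfl⟩ ((equivShrink (DegZeroTotal G T)).symm x).2.1,
      by
        obtain ⟨M, hM, h⟩ := ((equivShrink (DegZeroTotal G T)).symm x).2.2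
        exact ⟨M.pullbackAlong ⟨f, rfl⟩, by rw [← hM]; rfl, h.pullback _⟩⟩

theorem ptMap_mkPt (f : T' ⟶ T) (M : RigidifiedLineBundle c ε t) (h : FibDegZero G M) :
    ptMap f (mkPt t M h) =
      mkPt (f ≫ t) (M.pullbackAlong ⟨f, rfl⟩) (h.pullback _) := by
  have key : ∀ y : DegZeroTotal G T, y = ⟨t, Quotient.mk _ M, M, rfl, h⟩ →
      equivShrink (DegZeroTotal G T') ⟨f ≫ y.1, RigidifiedLineBundle.classesMap ⟨f, rfl⟩ y.2.1, by
        obtain ⟨M, hM, h⟩ := y.2.2
        exact ⟨M.pullbackAlong ⟨f, rfl⟩, by rw [← hM]; rfl, h.pullback _⟩⟩ =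
      mkPt (f ≫ t) (M.pullbackAlong ⟨f, rfl⟩) (h.pullback _) := by
    rintro y rfl
    rfl
  exact key _ ((equivShrink _).symm_apply_apply _)

theorem ptMap_mkPt_of_over (ψ : SchemeHomOver t' t) (M : RigidifiedLineBundle c ε t)
    (h : FibDegZero G M) : ptMap ψ.1 (mkPt t M h) = mkPt t' (M.pullbackAlong ψ) (h.pullback ψ) := by
  obtain ⟨f, rfl⟩ := ψ
  exact ptMap_mkPt f M h

theorem ptBase_ptMap (f : T' ⟶ T) (x : DegZeroPts G T) : ptBase (ptMap f x) = f ≫ ptBase x := by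
  obtain ⟨t, M, h, rfl⟩ := exists_mkPt x
  rw [ptMap_mkPt, ptBase_mkPt, ptBase_mkPt]

theorem ptMap_id (x : DegZeroPts G T) : ptMap (𝟙 T) x = x := by
  obtain ⟨t, M, h, rfl⟩ := exists_mkPt x
  rw [show (𝟙 T) = (⟨𝟙 T, Category.id_comp t⟩ : SchemeHomOver t t).1 from rfl,
    ptMap_mkPt_of_over, mkPt_eq_iff]
  exact pullbackAlong_id M _ rfl

theorem ptMap_comp {T'' : Scheme.{u}} (f : T' ⟶ T) (g : T'' ⟶ T') (x : DegZeroPts G T) :
    ptMap g (ptMap f x) = ptMap (g ≫ f) x := by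
  obtain ⟨t, M, h, rfl⟩ := exists_mkPt x
  rw [ptMap_mkPt, ptMap_mkPt,
    show g ≫ f = (postComp (⟨f, rfl⟩ : SchemeHomOver (f ≫ t) t)
      (⟨g, rfl⟩ : SchemeHomOver (g ≫ f ≫ t) (f ≫ t))).1 from rfl,
    ptMap_mkPt_of_over, mkPt_eq_iff]
  exact pullbackAlong_comp M _ _

variable (G)

/-- The functor of rigidified bundles of degree zero. -/
def degZeroFunctor : Scheme.{u}ᵒᵖ ⥤ Type u where
  obj T := DegZeroPts G T.unop
  map f := TypeCat.ofHom (ptMap f.unop)
  map_id _T := TypeCat.homEquiv.injective (funext fun x => ptMap_id x)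
  map_comp f g := TypeCat.homEquiv.injective (funext fun x => (ptMap_comp f.unop g.unop x).symm)

variable {G}

/-- Degree zero is local on the base. -/
theorem fibDegZero_of_cover (𝓤 : T.OpenCover) (N : RigidifiedLineBundle c ε t)
    (h : ∀ (j : 𝓤.I₀) (u : 𝓤.X j ⟶ Spec (CommRingCat.of k)) (hu : 𝓤.f j ≫ t = u),
      FibDegZero G (N.pullbackAlong ⟨𝓤.f j, hu⟩)) : FibDegZero G N := by
  intro K _ _ g X hX
  obtain ⟨j, y, hy⟩ := 𝓤.exists_eq (g.1 (IsLocalRing.closedPoint K))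
  have hr : Set.range g.1 ⊆ Set.range (𝓤.f j) := by
    rintro _ ⟨x, rfl⟩
    exact ⟨y, hy.trans (congrArg g.1 (Subsingleton.elim _ x))⟩
  let g' : SchemeHomOver (str k K) (𝓤.f j ≫ t) :=
    ⟨IsOpenImmersion.lift (𝓤.f j) g.1 hr, by rw [IsOpenImmersion.lift_fac_assoc, g.2]⟩
  have e : postComp ⟨𝓤.f j, rfl⟩ g' = g := Subtype.ext (IsOpenImmersion.lift_fac _ _ hr)
  have h2 := (pullbackAlong_comp N ⟨𝓤.f j, rfl⟩ g').some
  rw [e] at h2
  exact h j _ rfl K g' X (hX.of_iso h2.symm)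

set_option maxHeartbeats 800000 in
/-- Bundles of degree zero form a sheaf. -/
theorem isSheaf_degZeroFunctor (hD : DictProps G) :
    Presieve.IsSheaf Scheme.zariskiTopology (degZeroFunctor G) := by
  rw [Precoverage.isSheaf_toGrothendieck_iff_of_isStableUnderBaseChange]
  rintro Y S hS x hx
  obtain ⟨(𝓤 : Scheme.OpenCover Y), rfl⟩ := Scheme.exists_cover_of_mem_pretopology hS
  choose s M hM hMx using fun j => exists_mkPt (G := G) (x (𝓤.f j) (.mk j))
  have hcomp : ∀ (i j : 𝓤.I₀) ⦃Z : Scheme.{u}⦄ (a : Z ⟶ 𝓤.X i) (b : Z ⟶ 𝓤.X j),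
      a ≫ 𝓤.f i = b ≫ 𝓤.f j →
        ptMap (G := G) a (mkPt (s i) (M i) (hM i)) = ptMap b (mkPt (s j) (M j) (hM j)) := by
    intro i j Z a b hab
    rw [← hMx, ← hMx]
    exact hx a b _ _ hab
  have hs : ∀ i j, pullback.fst (𝓤.f i) (𝓤.f j) ≫ s i = pullback.snd (𝓤.f i) (𝓤.f j) ≫ s j := by
    intro i j
    have e := congrArg ptBase (hcomp i j _ _ pullback.condition)
    rwa [ptBase_ptMap, ptBase_ptMap, ptBase_mkPt, ptBase_mkPt] at e
  obtain ⟨sY, hsY⟩ : ∃ sY : Y ⟶ Spec (CommRingCat.of k), ∀ i, 𝓤.f i ≫ sY = s i :=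
    ⟨Scheme.Cover.glueMorphisms 𝓤 s hs, fun i => Scheme.Cover.ι_glueMorphisms 𝓤 s hs i⟩
  let ψ : ∀ i, SchemeHomOver (s i) sY := fun i => ⟨𝓤.f i, hsY i⟩
  haveI : ∀ i, IsOpenImmersion (ψ i).1 := fun i => inferInstanceAs (IsOpenImmersion (𝓤.f i))
  obtain ⟨N, hN⟩ := exists_glueBundle_large ψ M hD.baseSurj (top_le_iSup_opensRange 𝓤)
    fun i j T'' t'' a b hab => by
      have e := hcomp i j a.1 b.1 (congrArg Subtype.val hab)
      rw [ptMap_mkPt_of_over, ptMap_mkPt_of_over] at e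
      exact mkPt_eq_iff.mp e
  have hNdeg : FibDegZero G N := fibDegZero_of_cover 𝓤 N fun j u hu => by
    obtain rfl : s j = u := (hsY j).symm.trans hu
    exact (hM j).of_iso ⟨(hN j).some.symm⟩
  refine ⟨mkPt sY N hNdeg, ?_, ?_⟩
  · rintro Z f ⟨j⟩
    show ptMap (G := G) (ψ j).1 (mkPt sY N hNdeg) = _
    rw [ptMap_mkPt_of_over, hMx j]
    exact mkPt_eq_iff.mpr (hN j)
  · intro y hy
    obtain ⟨t', M', hM', rfl⟩ := exists_mkPt (G := G) y
    have hy' : ∀ j, ptMap (G := G) (𝓤.f j) (mkPt t' M' hM') = mkPt (s j) (M j) (hM j) :=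
      fun j => (hy (𝓤.f j) (.mk j)).trans (hMx j)
    obtain rfl : t' = sY := 𝓤.hom_ext _ _ fun j => by
      have e := congrArg ptBase (hy' j)
      rw [ptBase_ptMap, ptBase_mkPt, ptBase_mkPt] at e
      rw [hsY]
      exact e
    refine mkPt_eq_iff.mpr (nonempty_iso_of_pullbackAlong_cover (hD.baseSurj t') M' N ψ
      (top_le_iSup_opensRange 𝓤) fun j => ?_)
    have e := hy' j
    rw [show 𝓤.f j = (ψ j).1 from rfl, ptMap_mkPt_of_over] at e
    exact ⟨(mkPt_eq_iff.mp e).some ≪≫ (hN j).some.symm⟩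

end Fermat.Agent.RelPic

end
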